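import Fermat.Agent.DR.S36.LClass

/-!
# Fixed divisors and functions for fixed torsion classes of `J₀(N)`

For an arbitrary set `H` of elements of `G_ℚ` fixing the class `x ∈ J₀(N)[m]` there are a divisor
`D` in the class `x` and a function `f` with `div f = m D`, both fixed by `H`.
-/

set_option autoImplicit false

noncomputable section

open ModularCurve AlgebraicCurve

namespace Fermat.Agent.DR.OrdAll

open Fermat.Agent.MFF Fermat.Agent.RR Fermat.Agent.DR.S36.L

variable {N : ℕ} [NeZero N]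

/-- Classes fixed by `H` contain divisors fixed by `H`. -/
theorem exists_fixed_divisor (H : Set (AlgebraicClosure ℚ ≃ₐ[ℚ] AlgebraicClosure ℚ))
    {x : JZero N} (hx : ∀ σ ∈ H, σ • x = x) :
    ∃ D : Divisor.degZero (K := AlgebraicClosure ℚ) (F := modularFunctionFieldBar N),
      Pic0.mk D = x ∧ ∀ σ ∈ H,
        arithmeticGalois (modularFunctionFieldFull N) σ •
          (D : Divisor (AlgebraicClosure ℚ) (modularFunctionFieldBar N)) = D := by
  obtain ⟨D, hD, hfix⟩ := exists_fixed_mk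
    ((fun σ => arithmeticGalois (modularFunctionFieldFull N) σ) '' H) (cuspPlace N)
    (by
      rintro _ ⟨σ, -, rfl⟩
      exact arithmeticGalois_smul_cuspPlace N σ) x
    (by
      rintro _ ⟨σ, hσ, rfl⟩
      exact hx σ hσ)
  exact ⟨D, hD, fun σ hσ => hfix _ ⟨σ, hσ, rfl⟩⟩

/-- A principal divisor fixed by `H` is the divisor of a function fixed by `H`, with leading
coefficient `1` at the cusp `∞`. -/
theorem exists_fixed_function (H : Set (AlgebraicClosure ℚ ≃ₐ[ℚ] AlgebraicClosure ℚ))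
    {D : Divisor (AlgebraicClosure ℚ) (modularFunctionFieldBar N)}
    (hD : ∀ σ ∈ H, arithmeticGalois (modularFunctionFieldFull N) σ • D = D)
    (hprin : D.IsPrincipal) :
    ∃ f : modularFunctionFieldBar N, f ≠ 0 ∧
      (f : LaurentSeries (AlgebraicClosure ℚ)).coeff
        (f : LaurentSeries (AlgebraicClosure ℚ)).order = 1 ∧
      (∀ v : Place (AlgebraicClosure ℚ) (modularFunctionFieldBar N), D v = v.ord f) ∧
      ∀ σ ∈ H, arithmeticGalois (modularFunctionFieldFull N) σ • f = f := by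
  obtain ⟨h, hh, hdiv⟩ := hprin
  have hh' : (h : LaurentSeries (AlgebraicClosure ℚ)) ≠ 0 := fun h0 => hh (Subtype.ext h0)
  obtain ⟨n, hn⟩ : ∃ n : ℤ, n = (h : LaurentSeries (AlgebraicClosure ℚ)).order := ⟨_, rfl⟩
  obtain ⟨c, hc⟩ : ∃ c, c = cfn (modularFunctionFieldBar N) n h := ⟨_, rfl⟩
  have hc0 : c ≠ 0 := by
    rw [hc, hn, cfn_apply, Ne, HahnSeries.coeff_order_eq_zero]
    exact hh'
  obtain ⟨f, hf⟩ : ∃ f : modularFunctionFieldBar N, f = c⁻¹ • h := ⟨_, rfl⟩
  have hdivf : ∀ v : Place (AlgebraicClosure ℚ) (modularFunctionFieldBar N), D v = v.ord f :=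
    fun v => by rw [hf, hdiv, ord_smul v (inv_ne_zero hc0)]
  have hlead : cfn (modularFunctionFieldBar N) n f = 1 := by
    rw [hf, map_smul, ← hc, smul_eq_mul, inv_mul_cancel₀ hc0]
  have hf0 : f ≠ 0 := by
    rintro rfl
    rw [map_zero] at hlead
    exact zero_ne_one hlead
  have hord : (f : LaurentSeries (AlgebraicClosure ℚ)).order = n := by
    rw [← ord_cuspPlace, ← hdivf, hdiv, ord_cuspPlace, hn]
  refine ⟨f, hf0, ?_, hdivf, fun σ hσ =>
    smul_eq_of_fixed (cfn (modularFunctionFieldBar N)) _ (cfn_galois σ) (hD σ hσ) hf0 hdivf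
      hlead⟩
  rw [hord]
  exact hlead

/-- **Fixed torsion classes**: divisor and function fixed by `H`. -/
theorem exists_fixed_rep (H : Set (AlgebraicClosure ℚ ≃ₐ[ℚ] AlgebraicClosure ℚ)) {m : ℕ}
    {x : JZero N} (hx : ∀ σ ∈ H, σ • x = x) (hm : m • x = 0) :
    ∃ (D : Divisor.degZero (K := AlgebraicClosure ℚ) (F := modularFunctionFieldBar N))
      (f : modularFunctionFieldBar N), Pic0.mk D = x ∧
      (∀ σ ∈ H, arithmeticGalois (modularFunctionFieldFull N) σ •
          (D : Divisor (AlgebraicClosure ℚ) (modularFunctionFieldBar N)) = D) ∧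
      f ≠ 0 ∧ (f : LaurentSeries (AlgebraicClosure ℚ)).coeff
        (f : LaurentSeries (AlgebraicClosure ℚ)).order = 1 ∧
      (∀ v : Place (AlgebraicClosure ℚ) (modularFunctionFieldBar N),
        (m : ℤ) * (D : Divisor (AlgebraicClosure ℚ) (modularFunctionFieldBar N)) v = v.ord f) ∧
      ∀ σ ∈ H, arithmeticGalois (modularFunctionFieldFull N) σ • f = f := by
  obtain ⟨D, rfl, hD⟩ := exists_fixed_divisor H hx
  have hprin : Divisor.IsPrincipal
      (m • (D : Divisor (AlgebraicClosure ℚ) (modularFunctionFieldBar N))) := by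
    have h1 : Pic0.mk (m • D) = 0 := hm
    exact (QuotientAddGroup.eq_zero_iff _).mp h1
  have hfix : ∀ σ ∈ H, arithmeticGalois (modularFunctionFieldFull N) σ •
      (m • (D : Divisor (AlgebraicClosure ℚ) (modularFunctionFieldBar N))) = m • D := by
    intro σ hσ
    rw [smul_comm, hD σ hσ]
  obtain ⟨f, hf0, hlead, hdiv, hf⟩ := exists_fixed_function H hfix hprin
  refine ⟨D, f, rfl, hD, hf0, hlead, fun v => ?_, hf⟩
  rw [← hdiv, Finsupp.smul_apply, nsmul_eq_mul]

end Fermat.Agent.DR.OrdAll
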