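import Fermat.Agent.DR.OrdAll.New

/-!
# The Steinberg relation at `p` for `p`-new representations: eigenspaces of the involution
-/

set_option autoImplicit false
set_option linter.unusedSectionVars false

noncomputable section

namespace Fermat.Agent.DR.OrdAll

open IsLocalRing Fermat.Agent.P2 Fermat.FlatMatch Fermat.FlatModel FrobExists

local notation "Qb" => AlgebraicClosure ℚ
local notation "Γℚ" => (AlgebraicClosure ℚ ≃ₐ[ℚ] AlgebraicClosure ℚ)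

section Eig

variable {R : Type} [CommRing R] {J : Type} [AddCommGroup J] [Module R J]

/-- The eigenspace `w = -e`. -/
def eig (w : J →ₗ[R] J) (e : ℤ) : Submodule R J where
  carrier := {x | w x = -(e • x)}
  add_mem' := fun {a b} ha hb => by
    show w (a + b) = -(e • (a + b))
    rw [map_add, show w a = -(e • a) from ha, show w b = -(e • b) from hb, smul_add, neg_add]
  zero_mem' := by
    show w 0 = -(e • 0)
    rw [map_zero, smul_zero, neg_zero]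
  smul_mem' := fun c a ha => by
    show w (c • a) = -(e • (c • a))
    rw [map_smul, show w a = -(e • a) from ha, smul_neg, smul_comm]

theorem mem_eig {w : J →ₗ[R] J} {e : ℤ} {x : J} : x ∈ eig w e ↔ w x = -(e • x) := Iff.rfl

/-- The Galois action on an eigenspace. -/
@[reducible] def eigAction [DistribMulAction Γℚ J] (w : J →ₗ[R] J) (e : ℤ)
    (hwg : ∀ (g : Γℚ) x, w (g • x) = g • w x) : DistribMulAction Γℚ (eig w e) where
  smul g x := ⟨g • (x : J), by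
    rw [mem_eig, hwg, x.2, smul_neg, smul_comm]⟩
  one_smul x := Subtype.ext (one_smul _ _)
  mul_smul g h x := Subtype.ext (mul_smul _ _ _)
  smul_zero g := Subtype.ext (smul_zero _)
  smul_add g x y := Subtype.ext (smul_add _ _ _)

end Eig

section Main

variable {p : ℕ} {S : Finset ℕ}
  {𝒪 : Type} [CommRing 𝒪] [IsDomain 𝒪] [IsDiscreteValuationRing 𝒪]
  [IsAdicComplete (IsLocalRing.maximalIdeal 𝒪) 𝒪]

/-- **`p`-new: the Steinberg relation with prescribed sign.** -/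
theorem stRel_of_new_eig [Finite (ResidueField 𝒪)] [CharZero 𝒪]
    (hp : p.Prime) (hp𝒪 : (p : 𝒪) ∈ maximalIdeal 𝒪)
    (ψ : AnemicAlg S →+* 𝒪) (ρ : GaloisRepAdic 𝒪) (hρ : Attached ψ ρ)
    (hirr : ρ.residual.IsAbsolutelyIrreducible)
    (J : Type) [AddCommGroup J] [Module (AnemicAlg S) J] [DistribMulAction Γℚ J]
    [SMulCommClass Γℚ (AnemicAlg S) J]
    (hsmooth : ∀ x : J, ∃ L : IntermediateField ℚ (AlgebraicClosure ℚ), FiniteDimensional ℚ L ∧
      ∀ g : Γℚ, (∀ y ∈ L, g y = y) → g • x = x)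
    (hfrob : ∀ (ℓ : ℕ) (hℓ : ℓ.Prime) (hℓS : ℓ ∉ S), ∀ A : ValuationSubring (AlgebraicClosure ℚ),
      A.LiesOverPrime ℓ → ∀ σ : Γℚ, A.IsFrobeniusAt σ ℓ → ∀ x : J, (∃ n : ℕ, p ^ n • x = 0) →
        σ • x + ℓ • σ⁻¹ • x = (MvPolynomial.X ⟨⟨ℓ, hℓ⟩, hℓS⟩ : AnemicAlg S) • x)
    (hfin : Finite {x : J // p • x = 0})
    (w : J →ₗ[AnemicAlg S] J) (hwg : ∀ (g : Γℚ) x, w (g • x) = g • w x)
    {e : ℤ} (he : e = 1 ∨ e = -1)
    (hsupp : ∀ α : 𝒪, (∀ m, α ∈ (annTors (eig w e) (p ^ m)).map ψ) → α = 0)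
    (A : ValuationSubring (AlgebraicClosure ℚ)) (hA : A.LiesOverPrime p)
    (K0 : AddSubgroup J) (hK0g : ∀ (g : Γℚ), ∀ x ∈ K0, g • x ∈ K0) (t : AnemicAlg S)
    (hK0t : ∀ (n : ℕ) (x : J), p ^ n • x = 0 → t • x ∈ K0) (hπt : ψ t ≠ 0)
    (Kr : ℕ → AddSubgroup J)
    (hKr : ∀ (m : ℕ) (x : J), p ^ m • x = 0 → ∀ τ ∈ A.inertiaSubgroupIn ℚ, τ • x - x ∈ Kr m)
    (hFr : ∀ (m : ℕ) (x : J), p ^ m • x = 0 → x ∈ K0 → ∀ φ : Γℚ, A.IsFrobeniusAt φ p →
      φ • x + w x ∈ Kr m)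
    (hmult : ∀ m : ℕ, 1 ≤ m → ∀ x ∈ Kr m, p • x = 0 → x ∈ K0 →
      ∀ τ ∈ A.inertiaSubgroupIn ℚ, ∀ a : ℕ,
        (∀ ζ : AlgebraicClosure ℚ, ζ ^ p = 1 → τ ζ = ζ ^ a) → τ • x = a • x)
    (hns : p ≠ 2 ∨ NonScalarInertia p A ρ) :
    StRel A p (e : 𝒪) (fun g => LinearMap.det (ρ.ρ g)) (fun g => ρ.ρ g) := by
  let actE : DistribMulAction Γℚ (eig w e) := eigAction w e hwg
  have hcoe : ∀ (g : Γℚ) (x : eig w e), ((g • x : eig w e) : J) = g • (x : J) := fun g x => rfl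
  have hcomm : SMulCommClass Γℚ (AnemicAlg S) (eig w e) :=
    ⟨fun g a x => Subtype.ext (smul_comm g a (x : J))⟩
  refine stRel_of_new_aux hp hp𝒪 ψ ρ hρ hirr (eig w e) ?_ ?_ ?_ hsupp A hA
    (K0.comap (eig w e).subtype.toAddMonoidHom) t ?_ hπt
    (fun m => (Kr m).comap (eig w e).subtype.toAddMonoidHom) he ?_ ?_ hns
  · intro x
    obtain ⟨L, hL, h⟩ := hsmooth (x : J)
    exact ⟨L, hL, fun g hg => Subtype.ext (h g hg)⟩
  · intro ℓ hℓ hℓS B hB σ hσ x hx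
    refine Subtype.ext ?_
    obtain ⟨n, hn⟩ := hx
    exact hfrob ℓ hℓ hℓS B hB σ hσ (x : J) ⟨n, congrArg Subtype.val hn⟩
  · exact Finite.of_injective (fun x : {x : eig w e // p • x = 0} =>
      (⟨x.1, congrArg Subtype.val x.2⟩ : {x : J // p • x = 0}))
      (fun a b h => Subtype.ext (Subtype.ext
        (congrArg (fun z : {x : J // p • x = 0} => (z : J)) h)))
  · intro n x hx
    exact hK0t n (x : J) (congrArg Subtype.val hx)
  · intro m x hx hx0 g hg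
    exact smul_sub_eta_mem hp hA hsmooth w.toAddMonoidHom hwg K0 hK0g (Kr m) (hKr m)
      (fun x hx hxm φ hφ => hFr m x hxm hx φ hφ)
      (by rcases he with rfl | rfl <;> norm_num) hx0 (congrArg Subtype.val hx) x.2 hg
  · intro m hm x hx hpx hx0 τ hτ a ha
    exact Subtype.ext (hmult m hm (x : J) hx (congrArg Subtype.val hpx) hx0 τ hτ a ha)

/-- One of the two signs is supported. -/
theorem exists_eig_support (hp𝒪 : (p : 𝒪) ∈ maximalIdeal 𝒪)
    {R : Type} [CommRing R] (ψ : R →+* 𝒪)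
    (J : Type) [AddCommGroup J] [Module R J]
    (hsupp : ∀ (m : ℕ) (a : R), (∀ x : J, p ^ m • x = 0 → a • x = 0) → (p : 𝒪) ^ m ∣ ψ a)
    (w : J →ₗ[R] J) (hww : ∀ x, w (w x) = x) :
    ∃ e : ℤ, (e = 1 ∨ e = -1) ∧
      ∀ α : 𝒪, (∀ m, α ∈ (annTors (eig w e) (p ^ m)).map ψ) → α = 0 := by
  rcases exists_sign_support hp𝒪 ψ J hsupp (eig w (-1)) (eig w 1) w hww
    (fun x hx => by rw [mem_eig, hx, neg_smul, one_smul, neg_neg])
    (fun x hx => by rw [mem_eig, hx, one_smul]) with h | h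
  · exact ⟨-1, Or.inr rfl, h⟩
  · exact ⟨1, Or.inl rfl, h⟩

end Main

end Fermat.Agent.DR.OrdAll
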