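import Fermat.Agent.P2.Defs
import Fermat.Agent.TWP.FlatLoc.FrobDec
import Fermat.Agent.EllRed.Equivariance

/-!
# The unramified quadratic character `eta` and the Steinberg relation

* `eta_mul`, `eta_inv`, `eta_frob`, `eta_inertia`: `eta` is multiplicative on the decomposition
  group;
* `exists_frob_mul_inertia_eta`: elements of the decomposition group agree on number fields with
  `φ ^ n * σ`, and `eta = e ^ n`;
* `stRel_of_place`: the Steinberg relation at one place over `q` gives all places over `q`.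
-/

set_option autoImplicit false
set_option linter.style.haveILetI false

noncomputable section

open Pointwise

namespace Fermat.Agent.DR.OrdAll

open Fermat.Agent.P2 Fermat.Agent.TWFlat FrobExists

local notation "Qb" => AlgebraicClosure ℚ
local notation "Γℚ" => (AlgebraicClosure ℚ ≃ₐ[ℚ] AlgebraicClosure ℚ)

section

variable {P : ValuationSubring (AlgebraicClosure ℚ)} {q : ℕ}

theorem sq_sub_one_pos (hq : q.Prime) : 0 < q ^ 2 - 1 := by
  have := hq.two_le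
  have : 2 ^ 2 ≤ q ^ 2 := Nat.pow_le_pow_left this 2
  omega

theorem sub_one_lt_sq_sub_one (hq : q.Prime) : q - 1 < q ^ 2 - 1 := by
  have h2 := hq.two_le
  have : q * 2 ≤ q ^ 2 := by rw [sq]; exact Nat.mul_le_mul_left q h2
  omega

theorem smul_residue_eq (g : P.decompositionSubgroup ℚ) {z w : Qb} (hz : z ∈ P) (hw : w ∈ P)
    (h : P.valuation ((g : Γℚ) z - w) < 1) :
    g • IsLocalRing.residue P ⟨z, hz⟩ = IsLocalRing.residue P ⟨w, hw⟩ := by
  have e : g • IsLocalRing.residue P ⟨z, hz⟩ =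
      IsLocalRing.residue P (g • (⟨z, hz⟩ : P)) := rfl
  rw [e, ← sub_eq_zero, ← map_sub, IsLocalRing.residue_eq_zero_iff, P.valuation_lt_one_iff]
  exact h

/-- The reduction of a primitive root of unity of order prime to `q`. -/
theorem isPrimitiveRoot_residue (hq : q.Prime) (hP : P.LiesOverPrime q) {N : ℕ} (hN : ¬ q ∣ N)
    {ζ : Qb} (hζ : IsPrimitiveRoot ζ N) (hmem : ζ ∈ P) :
    IsPrimitiveRoot (IsLocalRing.residue P ⟨ζ, hmem⟩) N := by
  have hN0 : 0 < N := Nat.pos_of_ne_zero (by rintro rfl; exact hN (dvd_zero q))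
  haveI : CharP (IsLocalRing.ResidueField P) q := EllRed.charP_residueField hq hP
  haveI : NeZero ((N : ℕ) : IsLocalRing.ResidueField P) := ⟨fun h =>
    hN ((CharP.cast_eq_zero_iff _ q N).mp h)⟩
  rw [← Polynomial.isRoot_cyclotomic_iff]
  have h1 : (Polynomial.cyclotomic N P).eval (⟨ζ, hmem⟩ : P) = 0 := by
    have h2 := hζ.isRoot_cyclotomic hN0
    rw [Polynomial.IsRoot.def, ← Polynomial.map_cyclotomic N P.subtype,
      Polynomial.eval_map] at h2
    have h3 : Polynomial.eval₂ P.subtype ζ (Polynomial.cyclotomic N P) =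
        P.subtype ((Polynomial.cyclotomic N P).eval (⟨ζ, hmem⟩ : P)) := by
      rw [← Polynomial.eval₂_at_apply]
      rfl
    rw [h3] at h2
    exact Subtype.ext h2
  rw [Polynomial.IsRoot.def, ← Polynomial.map_cyclotomic N (IsLocalRing.residue P),
    Polynomial.eval_map, Polynomial.eval₂_at_apply, h1, map_zero]

theorem not_dvd_sq_sub_one (hq : q.Prime) : ¬ q ∣ q ^ 2 - 1 := by
  intro h
  have h1 : q ∣ q ^ 2 := dvd_pow_self q two_ne_zero
  have h2 : 1 ≤ q ^ 2 := Nat.one_le_pow _ _ hq.pos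
  have h3 : q ∣ 1 := by
    have := Nat.dvd_sub h1 h
    rwa [Nat.sub_sub_self h2] at this
  exact hq.one_lt.ne' (Nat.dvd_one.mp h3)

theorem mem_of_root {N : ℕ} (hN : 0 < N) {ζ : Qb} (hζ : ζ ^ N = 1) : ζ ∈ P :=
  mem_of_isIntegral P (IsIntegral.of_pow hN (by rw [hζ]; exact isIntegral_one))

theorem pow_sq_iter {κ : Type*} [Monoid κ] {x : κ} (hx : x ^ q ^ 2 = x) (k : ℕ) :
    x ^ q ^ (2 * k) = x := by
  induction k with
  | zero => rw [mul_zero, pow_zero, pow_one]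
  | succ k ih =>
    have : q ^ (2 * (k + 1)) = q ^ (2 * k) * q ^ 2 := by rw [← pow_add]; ring_nf
    rw [this, pow_mul, ih, hx]

/-- **Parity criterion.** -/
theorem isOddAt_iff (hq : q.Prime) (hP : P.LiesOverPrime q) {ζ : Qb}
    (hζ : IsPrimitiveRoot ζ (q ^ 2 - 1)) {g : Γℚ} (hg : g ∈ P.decompositionSubgroup ℚ) {n : ℕ}
    (h : P.valuation (g ζ - ζ ^ q ^ n) < 1) : IsOddAt P q g ↔ Odd n := by
  have hpos := sq_sub_one_pos hq
  have hmem : ζ ∈ P := mem_of_root hpos hζ.pow_eq_one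
  have hz := isPrimitiveRoot_residue hq hP (not_dvd_sq_sub_one hq) hζ hmem
  set z := IsLocalRing.residue P ⟨ζ, hmem⟩ with hzdef
  have hgz : (⟨g, hg⟩ : P.decompositionSubgroup ℚ) • z = z ^ q ^ n := by
    rw [hzdef, smul_residue_eq ⟨g, hg⟩ hmem (pow_mem hmem _) h, ← map_pow]
    rfl
  have hsq : z ^ q ^ 2 = z := by
    have h1 : q ^ 2 = (q ^ 2 - 1) + 1 := (Nat.sub_add_cancel (Nat.one_le_pow _ _ hq.pos)).symm
    rw [h1, pow_succ, hz.pow_eq_one, one_mul]
  have hgx : ∀ x : IsLocalRing.ResidueField P, x ^ q ^ 2 = x →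
      (⟨g, hg⟩ : P.decompositionSubgroup ℚ) • x = x ^ q ^ n := by
    intro x hx
    by_cases hx0 : x = 0
    · rw [hx0, smul_zero, zero_pow (pow_ne_zero _ hq.ne_zero)]
    · have h1 : x ^ (q ^ 2 - 1) = 1 := by
        have h2 : q ^ 2 = (q ^ 2 - 1) + 1 := (Nat.sub_add_cancel (Nat.one_le_pow _ _ hq.pos)).symm
        rw [h2, pow_succ] at hx
        exact mul_right_cancel₀ hx0 (by rw [hx, one_mul])
      haveI : NeZero (q ^ 2 - 1) := ⟨hpos.ne'⟩
      obtain ⟨i, -, rfl⟩ := hz.eq_pow_of_pow_eq_one h1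
      rw [smul_pow', hgz, ← pow_mul, ← pow_mul, mul_comm]
  constructor
  · rintro ⟨hg', x, hx, hne⟩
    by_contra hodd
    rw [Nat.not_odd_iff_even] at hodd
    obtain ⟨k, rfl⟩ := hodd
    apply hne
    rw [hgx x hx, ← two_mul, pow_sq_iter hx]
  · rintro ⟨k, rfl⟩
    refine ⟨hg, z, hsq, ?_⟩
    rw [hgz]
    have h1 : z ^ q ^ (2 * k + 1) = z ^ q := by
      rw [pow_succ, pow_mul, pow_sq_iter hsq]
    rw [h1]
    intro h2
    have h3 : z ^ (q - 1) = 1 := by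
      have h4 : q = (q - 1) + 1 := (Nat.sub_add_cancel hq.pos).symm
      have hz0 : z ≠ 0 := hz.ne_zero hpos.ne'
      rw [h4, pow_succ] at h2
      exact mul_right_cancel₀ hz0 (by rw [h2, one_mul])
    have h5 := hz.dvd_of_pow_eq_one _ h3
    exact absurd (Nat.le_of_dvd (Nat.sub_pos_of_lt hq.one_lt) h5)
      (not_le.mpr (sub_one_lt_sq_sub_one hq))

theorem exists_zeta (hq : q.Prime) : ∃ ζ : Qb, IsPrimitiveRoot ζ (q ^ 2 - 1) := by
  haveI : NeZero (q ^ 2 - 1) := ⟨(sq_sub_one_pos hq).ne'⟩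
  exact HasEnoughRootsOfUnity.exists_primitiveRoot Qb (q ^ 2 - 1)

/-- Every element of the decomposition group has a parity. -/
theorem exists_parity (hq : q.Prime) (hP : P.LiesOverPrime q) (ζ : Qb)
    (hζ : IsPrimitiveRoot ζ (q ^ 2 - 1)) {g : Γℚ} (hg : g ∈ P.decompositionSubgroup ℚ) :
    ∃ n : ℕ, P.valuation (g ζ - ζ ^ q ^ n) < 1 := by
  have hint : IsIntegral ℤ ζ :=
    IsIntegral.of_pow (sq_sub_one_pos hq) (by rw [hζ.pow_eq_one]; exact isIntegral_one)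
  haveI : FiniteDimensional ℚ (IntermediateField.adjoin ℚ ({ζ} : Set Qb)) :=
    IntermediateField.adjoin.finiteDimensional (hint.tower_top)
  obtain ⟨n, hn⟩ := exists_pow_frob hq hP hg (IntermediateField.adjoin ℚ ({ζ} : Set Qb))
  exact ⟨n, hn ζ hint (IntermediateField.mem_adjoin_simple_self ℚ ζ)⟩


theorem val_pow_sub_lt {x y : Qb} (hx : P.valuation x ≤ 1) (hy : P.valuation y ≤ 1)
    (h : P.valuation (x - y) < 1) (n : ℕ) : P.valuation (x ^ n - y ^ n) < 1 := by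
  have hx' := (P.valuation_le_one_iff x).mp hx
  have hy' := (P.valuation_le_one_iff y).mp hy
  have h1 : IsLocalRing.residue P ⟨x, hx'⟩ = IsLocalRing.residue P ⟨y, hy'⟩ := by
    rw [← sub_eq_zero, ← map_sub, IsLocalRing.residue_eq_zero_iff, P.valuation_lt_one_iff]
    exact h
  have h2 : IsLocalRing.residue P ((⟨x, hx'⟩ : P) ^ n - ⟨y, hy'⟩ ^ n) = 0 := by
    rw [map_sub, map_pow, map_pow, h1, sub_self]
  rw [IsLocalRing.residue_eq_zero_iff, P.valuation_lt_one_iff] at h2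
  exact h2

theorem val_root {N : ℕ} (hN : 0 < N) {ζ : Qb} (hζ : ζ ^ N = 1) : P.valuation ζ ≤ 1 :=
  (P.valuation_le_one_iff ζ).mpr (mem_of_root hN hζ)

/-- Parities add up. -/
theorem parity_mul (hq : q.Prime) {ζ : Qb} (hζ : IsPrimitiveRoot ζ (q ^ 2 - 1)) {g h : Γℚ}
    (hg : g ∈ P.decompositionSubgroup ℚ) {m n : ℕ}
    (h1 : P.valuation (g ζ - ζ ^ q ^ m) < 1) (h2 : P.valuation (h ζ - ζ ^ q ^ n) < 1) :
    P.valuation ((g * h) ζ - ζ ^ q ^ (m + n)) < 1 := by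
  have hv : P.valuation ζ ≤ 1 := val_root (sq_sub_one_pos hq) hζ.pow_eq_one
  have e : (g * h) ζ - ζ ^ q ^ (m + n) =
      g (h ζ - ζ ^ q ^ n) + ((g ζ) ^ q ^ n - (ζ ^ q ^ m) ^ q ^ n) := by
    rw [map_sub, map_pow, ← pow_mul, ← pow_add]
    show g (h ζ) - _ = _
    ring
  rw [e]
  refine lt_of_le_of_lt (P.valuation.map_add _ _) (max_lt ?_ ?_)
  · rw [val_dec hg]; exact h2
  · refine val_pow_sub_lt ?_ ?_ h1 _
    · rw [val_dec hg]; exact hv
    · rw [map_pow]; exact pow_le_one₀ zero_le hv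

theorem parity_frob (hq : q.Prime) {ζ : Qb} (hζ : IsPrimitiveRoot ζ (q ^ 2 - 1)) {φ : Γℚ}
    (hφ : P.IsFrobeniusAt φ q) (n : ℕ) : P.valuation ((φ ^ n) ζ - ζ ^ q ^ n) < 1 :=
  frob_pow hφ n (val_root (sq_sub_one_pos hq) hζ.pow_eq_one)

theorem parity_inertia (hq : q.Prime) {ζ : Qb} (hζ : IsPrimitiveRoot ζ (q ^ 2 - 1)) {τ : Γℚ}
    (hτ : τ ∈ P.inertiaSubgroupIn ℚ) : P.valuation (τ ζ - ζ ^ q ^ 0) < 1 := by
  rw [pow_zero, pow_one]
  have hmem : ζ ∈ P := mem_of_root (sq_sub_one_pos hq) hζ.pow_eq_one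
  obtain ⟨t, ht, rfl⟩ := hτ
  have h1 : MulSemiringAction.toRingAut (P.decompositionSubgroup ℚ) (IsLocalRing.ResidueField P) t =
      1 := ht
  have h2 := RingEquiv.congr_fun h1 (IsLocalRing.residue P ⟨ζ, hmem⟩)
  have h3 : IsLocalRing.residue P (t • (⟨ζ, hmem⟩ : P) - ⟨ζ, hmem⟩) = 0 := by
    rw [map_sub, sub_eq_zero]
    exact h2
  rw [IsLocalRing.residue_eq_zero_iff, P.valuation_lt_one_iff] at h3
  exact h3

section Eta

variable {A : Type*} [CommMonoid A] {e : A}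

theorem pow_of_even (he : e * e = 1) {n : ℕ} (h : Even n) : e ^ n = 1 := by
  obtain ⟨k, rfl⟩ := h
  rw [pow_add, ← mul_pow, he, one_pow]

theorem pow_of_odd (he : e * e = 1) {n : ℕ} (h : Odd n) : e ^ n = e := by
  obtain ⟨k, rfl⟩ := h
  rw [pow_succ, two_mul, pow_of_even he ⟨k, rfl⟩, one_mul]

/-- `eta` as a power of `e`. -/
theorem eta_eq_pow (hq : q.Prime) (hP : P.LiesOverPrime q) (he : e * e = 1) {ζ : Qb}
    (hζ : IsPrimitiveRoot ζ (q ^ 2 - 1)) {g : Γℚ} (hg : g ∈ P.decompositionSubgroup ℚ) {n : ℕ}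
    (h : P.valuation (g ζ - ζ ^ q ^ n) < 1) : eta P q e g = e ^ n := by
  unfold eta
  split_ifs with h1
  · exact (pow_of_odd he ((isOddAt_iff hq hP hζ hg h).mp h1)).symm
  · rw [isOddAt_iff hq hP hζ hg h, Nat.not_odd_iff_even] at h1
    exact (pow_of_even he h1).symm

theorem eta_mul (hq : q.Prime) (hP : P.LiesOverPrime q) (he : e * e = 1) {g h : Γℚ}
    (hg : g ∈ P.decompositionSubgroup ℚ) (hh : h ∈ P.decompositionSubgroup ℚ) :
    eta P q e (g * h) = eta P q e g * eta P q e h := by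
  obtain ⟨ζ, hζ⟩ := exists_zeta hq
  obtain ⟨m, hm⟩ := exists_parity hq hP ζ hζ hg
  obtain ⟨n, hn⟩ := exists_parity hq hP ζ hζ hh
  rw [eta_eq_pow hq hP he hζ hg hm, eta_eq_pow hq hP he hζ hh hn,
    eta_eq_pow hq hP he hζ (mul_mem hg hh) (parity_mul hq hζ hg hm hn), pow_add]

theorem eta_frob (hq : q.Prime) (hP : P.LiesOverPrime q) (he : e * e = 1) {φ : Γℚ}
    (hφ : P.IsFrobeniusAt φ q) : eta P q e φ = e := by
  obtain ⟨ζ, hζ⟩ := exists_zeta hq
  have h := parity_frob hq hζ hφ 1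
  rw [pow_one] at h
  rw [eta_eq_pow hq hP he hζ hφ.mem_decompositionSubgroup h, pow_one]

theorem inertia_le {τ : Γℚ} (hτ : τ ∈ P.inertiaSubgroupIn ℚ) : τ ∈ P.decompositionSubgroup ℚ := by
  obtain ⟨t, -, rfl⟩ := hτ
  exact t.2

theorem eta_inertia (hq : q.Prime) (hP : P.LiesOverPrime q) (he : e * e = 1) {τ : Γℚ}
    (hτ : τ ∈ P.inertiaSubgroupIn ℚ) : eta P q e τ = 1 := by
  obtain ⟨ζ, hζ⟩ := exists_zeta hq
  rw [eta_eq_pow hq hP he hζ (inertia_le hτ) (parity_inertia hq hζ hτ), pow_zero]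

theorem eta_one' (hq : q.Prime) (hP : P.LiesOverPrime q) (he : e * e = 1) :
    eta P q e (1 : Γℚ) = 1 := eta_inertia hq hP he (one_mem _)

theorem eta_mul_self (he : e * e = 1) (g : Γℚ) :
    eta P q e g * eta P q e g = 1 := by
  unfold eta
  split_ifs
  · exact he
  · exact one_mul 1

theorem eta_inv (hq : q.Prime) (hP : P.LiesOverPrime q) (he : e * e = 1) {g : Γℚ}
    (hg : g ∈ P.decompositionSubgroup ℚ) : eta P q e g⁻¹ = eta P q e g := by
  have h1 := eta_mul hq hP he hg (inv_mem hg)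
  rw [mul_inv_cancel, eta_one' hq hP he] at h1
  calc eta P q e g⁻¹ = eta P q e g * eta P q e g * eta P q e g⁻¹ := by
        rw [eta_mul_self he, one_mul]
    _ = eta P q e g := by rw [mul_assoc, ← h1, mul_one]

theorem eta_conj (hq : q.Prime) (hP : P.LiesOverPrime q) (he : e * e = 1) {g h : Γℚ}
    (hg : g ∈ P.decompositionSubgroup ℚ) (hh : h ∈ P.decompositionSubgroup ℚ) :
    eta P q e (g * h * g⁻¹) = eta P q e h := by
  rw [eta_mul hq hP he (mul_mem hg hh) (inv_mem hg), eta_mul hq hP he hg hh, eta_inv hq hP he hg,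
    mul_right_comm, eta_mul_self he, one_mul]

/-- **Density, with parity.** -/
theorem exists_frob_mul_inertia_eta (hq : q.Prime) (hP : P.LiesOverPrime q) {φ : Γℚ}
    (hφ : P.IsFrobeniusAt φ q) {g : Γℚ} (hg : g ∈ P.decompositionSubgroup ℚ)
    (L : IntermediateField ℚ Qb) [FiniteDimensional ℚ L] :
    ∃ n : ℕ, ∃ σ ∈ P.inertiaSubgroupIn ℚ, (∀ x ∈ L, g x = (φ ^ n * σ) x) ∧
      ∀ (A : Type) [CommMonoid A] (e : A), e * e = 1 → eta P q e g = e ^ n := by
  obtain ⟨ζ, hζ⟩ := exists_zeta hq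
  have hint : IsIntegral ℤ ζ :=
    IsIntegral.of_pow (sq_sub_one_pos hq) (by rw [hζ.pow_eq_one]; exact isIntegral_one)
  haveI : FiniteDimensional ℚ (IntermediateField.adjoin ℚ ({ζ} : Set Qb)) :=
    IntermediateField.adjoin.finiteDimensional (hint.tower_top)
  obtain ⟨n, σ, hσ, h⟩ := exists_frob_mul_inertia hq hP hφ hg
    (L ⊔ IntermediateField.adjoin ℚ ({ζ} : Set Qb))
  refine ⟨n, σ, hσ, fun x hx => h x (le_sup_left (a := L) hx), fun A _ e he => ?_⟩
  refine eta_eq_pow hq hP he hζ hg ?_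
  rw [h ζ (le_sup_right (a := L) (IntermediateField.mem_adjoin_simple_self ℚ ζ))]
  exact parity_mul hq hζ (Subgroup.pow_mem _ hφ.mem_decompositionSubgroup n)
    (parity_frob hq hζ hφ n) (parity_inertia hq hζ hσ)

end Eta

section Transfer

theorem val_smul_lt_one_iff (σ : Γℚ) (x : Qb) :
    (σ • P).valuation x < 1 ↔ P.valuation (σ⁻¹ x) < 1 := by
  rw [← ValuationSubring.mem_nonunits_iff, ← ValuationSubring.mem_nonunits_iff,
    ValuationSubring.mem_nonunits_iff_or, ValuationSubring.mem_nonunits_iff_or, mem_smul_iff]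
  have h2 : σ⁻¹ • (x⁻¹) = (σ⁻¹ x)⁻¹ := map_inv₀ σ⁻¹ x
  rw [h2, map_eq_zero]

theorem eta_smul_place {A : Type*} [CommMonoid A] {e : A} (hq : q.Prime)
    (hP : P.LiesOverPrime q) (he : e * e = 1) (σ : Γℚ) {g : Γℚ}
    (hg : g ∈ (σ • P).decompositionSubgroup ℚ) :
    eta (σ • P) q e g = eta P q e (σ⁻¹ * g * σ) := by
  have hP' : (σ • P).LiesOverPrime q := smul_liesOverPrime σ P hP
  have hg' : σ⁻¹ * g * σ ∈ P.decompositionSubgroup ℚ := by
    have h1 := TWP.Place.decomposition_conj σ⁻¹ hg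
    rwa [inv_smul_smul, inv_inv] at h1
  obtain ⟨ζ, hζ⟩ := exists_zeta hq
  obtain ⟨n, hn⟩ := exists_parity hq hP' ζ hζ hg
  have hζ' : IsPrimitiveRoot (σ⁻¹ ζ) (q ^ 2 - 1) := hζ.map_of_injective σ⁻¹.injective
  rw [eta_eq_pow hq hP' he hζ hg hn]
  refine (eta_eq_pow hq hP he hζ' hg' ?_).symm
  rw [val_smul_lt_one_iff, map_sub, map_pow] at hn
  have e1 : (σ⁻¹ * g * σ) (σ⁻¹ ζ) = σ⁻¹ (g ζ) := by
    have : σ (σ⁻¹ ζ) = ζ := by
      show (σ * σ⁻¹) ζ = ζ
      rw [mul_inv_cancel]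
      rfl
    show σ⁻¹ (g (σ (σ⁻¹ ζ))) = _
    rw [this]
  rw [e1]
  exact hn

variable {A E : Type*} [CommRing A] [Ring E] [Algebra A E]

/-- The Steinberg relation is conjugation invariant. -/
theorem stRel_smul (hq : q.Prime) (hP : P.LiesOverPrime q) {e : A} (he : e * e = 1)
    {d : Γℚ → A} (hd : ∀ g h, d (g * h * g⁻¹) = d h) {ρ : Γℚ →* E}
    (h : StRel P q e d (fun g => ρ g)) (σ : Γℚ) : StRel (σ • P) q e d (fun g => ρ g) := by
  have hdec : ∀ {s : Γℚ}, s ∈ (σ • P).decompositionSubgroup ℚ →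
      σ⁻¹ * s * σ ∈ P.decompositionSubgroup ℚ := by
    intro s hs
    have h1 := TWP.Place.decomposition_conj σ⁻¹ hs
    rwa [inv_smul_smul, inv_inv] at h1
  intro g hg k hk
  have h1 := h _ (hdec hg) _ (hdec hk)
  rw [eta_smul_place hq hP he σ hg, eta_smul_place hq hP he σ hk]
  have hdg : d (σ⁻¹ * g * σ) = d g := by
    have := hd σ⁻¹ g
    rwa [inv_inv] at this
  simp only [hdg] at h1
  have hc : ∀ (a : A) (s : Γℚ), ρ s - algebraMap A E a =
      ρ σ * (ρ (σ⁻¹ * s * σ) - algebraMap A E a) * ρ σ⁻¹ := by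
    intro a s
    have h2 : ρ σ * ρ (σ⁻¹ * s * σ) * ρ σ⁻¹ = ρ s := by
      rw [← map_mul, ← map_mul]
      congr 1
      group
    have h3 : ρ σ * algebraMap A E a * ρ σ⁻¹ = algebraMap A E a := by
      rw [← Algebra.commutes, mul_assoc, ← map_mul, mul_inv_cancel, map_one, mul_one]
    rw [mul_sub, sub_mul, h2, h3]
  simp only
  rw [hc _ g, hc _ k]
  have hinv : ρ σ⁻¹ * ρ σ = 1 := by rw [← map_mul, inv_mul_cancel, map_one]
  calc ρ σ * (ρ (σ⁻¹ * g * σ) - algebraMap A E (eta P q e (σ⁻¹ * g * σ) * d g)) * ρ σ⁻¹ *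
        (ρ σ * (ρ (σ⁻¹ * k * σ) - algebraMap A E (eta P q e (σ⁻¹ * k * σ))) * ρ σ⁻¹)
      = ρ σ * ((ρ (σ⁻¹ * g * σ) - algebraMap A E (eta P q e (σ⁻¹ * g * σ) * d g)) *
        (ρ σ⁻¹ * ρ σ) * (ρ (σ⁻¹ * k * σ) - algebraMap A E (eta P q e (σ⁻¹ * k * σ)))) *
        ρ σ⁻¹ := by noncomm_ring
    _ = 0 := by rw [hinv, mul_one, h1, mul_zero, zero_mul]

/-- The Steinberg relation at one place gives all places over the same prime. -/
theorem stRel_of_place (hq : q.Prime) {P P' : ValuationSubring (AlgebraicClosure ℚ)}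
    (hP : P.LiesOverPrime q) (hP' : P'.LiesOverPrime q) {e : A} (he : e * e = 1)
    {d : Γℚ → A} (hd : ∀ g h, d (g * h * g⁻¹) = d h) {ρ : Γℚ →* E}
    (h : StRel P q e d (fun g => ρ g)) : StRel P' q e d (fun g => ρ g) := by
  obtain ⟨σ, rfl⟩ := exists_smul_eq P P' hq hP hP'
  exact stRel_smul hq hP he hd h σ

end Transfer

end

end Fermat.Agent.DR.OrdAll
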