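import Fermat.Agent.FlatMatch.SubMatch
import Fermat.Agent.P2.BLR

set_option autoImplicit false

/-!
# Matching with families of equivariant maps to a torsion module, any prime

The statements of `FlatMatch/SubMatch.lean` without the hypothesis `p ≠ 2`.
-/

namespace Fermat.Agent.DR.OrdAll

open IsLocalRing Fermat.FlatModel Fermat.FlatMatch ModularCurve
open scoped TensorProduct

noncomputable section

variable {T : Type} [CommRing T] [IsLocalRing T]

/-- One finite module: the quotient by the annihilator embeds linearly in a power. -/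
theorem exists_linear_embedding (ρ : GaloisRepAdic T)
    (hspan : Submodule.span T (Set.range ρ.ρ) = ⊤) (S : Finset ℕ) {X : Type} [AddCommGroup X]
    [Module T X] [Finite X] (ξ : GQ →* Module.End T X) (hsm : OpenTrivial ξ)
    (hfrob : FrobRel ρ S ξ) :
    ∃ i : X → (ρ.V →ₗ[T] X), (∀ v, (∀ w, i w v = 0) ↔
        v ∈ (Module.annihilator T X • (⊤ : Submodule T ρ.V))) ∧
      ∀ g v w, i w (ρ.ρ g v) = ξ g (i w v) := by
  obtain ⟨Ψ, hΨ⟩ := Fermat.Agent.P2.BLR.exists_algHom (stdBasis ρ)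
    (rel_of_frobenius ρ ξ hsm S hfrob) hspan
  refine ⟨fun w => (LinearMap.proj w) ∘ₗ embPi (stdBasis ρ) Ψ, fun v => ⟨fun h => ?_, fun h => ?_⟩,
    fun g v w => ?_⟩
  · exact mem_smul_top_of_embPi_eq_zero (stdBasis ρ) Ψ (funext fun w => h w)
  · intro w
    have hle : Module.annihilator T X • (⊤ : Submodule T ρ.V) ≤
        LinearMap.ker (embPi (stdBasis ρ) Ψ) := by
      rw [Submodule.smul_le]
      intro α hα v _
      rw [LinearMap.mem_ker, map_smul]
      funext w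
      exact Module.mem_annihilator.mp hα _
    have := hle h
    rw [LinearMap.mem_ker] at this
    exact congrFun this w
  · exact embPi_equivariant (stdBasis ρ) Ψ hΨ g v w

variable {R : Type} [CommRing R] [Algebra R T]

/-- **Sub-matching**, abstract form. -/
theorem exists_family_abstract [IsNoetherianRing T] [IsAdicComplete (maximalIdeal T) T]
    [Finite (ResidueField T)] (ρ : GaloisRepAdic T)
    (hspan : Submodule.span T (Set.range ρ.ρ) = ⊤) (S : Finset ℕ) (p c : ℕ)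
    [∀ m : ℕ, Finite (T ⧸ Ideal.span {((p ^ m : ℕ) : T)})]
    {M : ℕ → Type} [∀ m, AddCommGroup (M m)] [∀ m, Module R (M m)] [∀ m, Finite (M m)]
    (act : ∀ m, GQ →* Module.End R (M m)) (hsm : ∀ m, OpenTrivial (act m))
    (hM : ∀ m, ∀ x : M m, p ^ m • x = 0) (hc : ∀ m, Nat.card {y : M m // p • y = 0} ≤ c)
    (hfrob : ∀ m, ∀ ℓ : ℕ, ℓ.Prime → ℓ ∉ S → ∀ A : ValuationSubring (AlgebraicClosure ℚ),
      A.LiesOverPrime ℓ → ∀ σ : GQ, A.IsFrobeniusAt σ ℓ →
        ∃ t d : R, algebraMap R T t = LinearMap.trace T ρ.V (ρ.ρ σ) ∧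
          algebraMap R T d = LinearMap.det (ρ.ρ σ) ∧ act m σ + d • act m σ⁻¹ = t • 1)
    (hsupp : ∀ α : T, (∀ m, α ∈ (Module.annihilator R (M m)).map (algebraMap R T)) → α = 0)
    (hred : IsReduced T) (I : Ideal T) [Finite (T ⧸ I)] :
    ∃ (n : ℕ) (𝔞 : Ideal T), 𝔞 ≤ I ∧ Finite (T ⧸ 𝔞) ∧
      ∃ (K : Type) (j : K → ℕ) (f : ∀ k, ρ.V →+ M (j k)), (∀ k, j k < n) ∧
        (∀ k g v, f k (ρ.ρ g v) = act (j k) g (f k v)) ∧
        (∀ k (a : R) v, f k (algebraMap R T a • v) = a • f k v) ∧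
        ∀ v, (∀ k, f k v = 0) ↔ v ∈ 𝔞 • (⊤ : Submodule T ρ.V) := by
  have hfin : ∀ m, Finite (Coind R T (M m)) := fun m => finite_coind (p ^ m) (hM m)
  -- the annihilators
  have hann : ∀ m, ∀ α ∈ Module.annihilator T (Coind R T (M m)),
      α ^ c ∈ (Module.annihilator R (M m)).map (algebraMap R T) := fun m α hα =>
    pow_mem_map_annihilator_of_coind p m c (hM m) (hc m) fun f => Module.mem_annihilator.mp hα f
  let a : ℕ → Ideal T := fun m => Module.annihilator T (∀ j : Fin m, Coind R T (M j))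
  have ha : Antitone a := by
    intro m n hmn α hα
    rw [mem_annihilator_pi] at hα ⊢
    intro j
    exact hα ⟨j, lt_of_lt_of_le j.2 hmn⟩
  have h0 : ∀ x, (∀ m, x ∈ a m) → x = 0 := by
    intro x hx
    have hpow : x ^ c = 0 := by
      refine hsupp _ fun m => hann m x ?_
      have := hx (m + 1)
      rw [mem_annihilator_pi] at this
      exact this ⟨m, Nat.lt_succ_self m⟩
    exact IsReduced.eq_zero x ⟨c, hpow⟩
  obtain ⟨n, hn⟩ := exists_le_of_iInf_eq_bot a ha h0 I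
  refine ⟨n, a n, hn, finite_quotient_annihilator T _, ?_⟩
  let X := ∀ j : Fin n, Coind R T (M j)
  obtain ⟨i, hi, hact⟩ := exists_linear_embedding ρ hspan S
    (piRep (fun j : Fin n => coindRep T (act j)))
    (openTrivial_pi fun j => coindRep_openTrivial (hsm j))
    (frobRel_pi fun j => coindRep_frobRel ρ S (hfrob j))
  refine ⟨X × Fin n × T, fun k => k.2.1, fun k =>
    { toFun := fun v => (i k.1 v k.2.1 : Coind R T (M k.2.1)) k.2.2
      map_zero' := by rw [map_zero]; rfl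
      map_add' := fun v w => by rw [map_add]; rfl }, fun k => k.2.1.2, ?_, ?_, ?_⟩
  · intro k g v
    show (i k.1 (ρ.ρ g v) k.2.1 : Coind R T (M k.2.1)) k.2.2 = _
    rw [hact]
    rfl
  · intro k r v
    show (i k.1 (algebraMap R T r • v) k.2.1 : Coind R T (M k.2.1)) k.2.2 = _
    rw [map_smul]
    show (i k.1 v k.2.1 : Coind R T (M k.2.1)) (algebraMap R T r * k.2.2) = _
    rw [Coind.map_algebraMap_mul]
    rfl
  · intro v
    rw [← hi v]
    constructor
    · intro h w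
      funext j
      exact Coind.ext' fun t => h (w, j, t)
    · intro h k
      show (i k.1 v k.2.1 : Coind R T (M k.2.1)) k.2.2 = 0
      rw [h k.1]
      rfl

section Main

variable {p : ℕ} {S : Finset ℕ}
  {𝒪 : Type} [CommRing 𝒪] [IsDomain 𝒪] [IsDiscreteValuationRing 𝒪]
  [IsAdicComplete (IsLocalRing.maximalIdeal 𝒪) 𝒪]

/-- The elements of the anemic algebra killing the `m`-torsion. -/
def annTors {R : Type} [CommRing R] (J : Type) [AddCommGroup J] [Module R J] (m : ℕ) : Ideal R where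
  carrier := {a | ∀ x : J, m • x = 0 → a • x = 0}
  add_mem' := fun {a b} ha hb x hx => by rw [add_smul, ha x hx, hb x hx, add_zero]
  zero_mem' := fun x _ => zero_smul _ x
  smul_mem' := fun c a ha x hx => by rw [smul_eq_mul, mul_smul, ha x hx, smul_zero]

theorem mem_annTors {R : Type} [CommRing R] {J : Type} [AddCommGroup J] [Module R J] {m : ℕ}
    {a : R} : a ∈ annTors J m ↔ ∀ x : J, m • x = 0 → a • x = 0 := Iff.rfl

/-- **Sub-matching** over a discrete valuation ring, with a Galois module `J` over the anemic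
algebra. -/
theorem exists_family [Finite (ResidueField 𝒪)] [CharZero 𝒪]
    (hp : p.Prime)
    (ψ : AnemicAlg S →+* 𝒪) (ρ : GaloisRepAdic 𝒪)
    (hρ : ∀ (ℓ : ℕ) (hℓ : ℓ.Prime) (hℓS : ℓ ∉ S), ∀ A : ValuationSubring (AlgebraicClosure ℚ),
      A.LiesOverPrime ℓ → ∀ σ : GQ, A.IsFrobeniusAt σ ℓ →
        LinearMap.trace 𝒪 ρ.V (ρ.ρ σ) = ψ (MvPolynomial.X ⟨⟨ℓ, hℓ⟩, hℓS⟩) ∧
          LinearMap.det (ρ.ρ σ) = (ℓ : 𝒪))
    (hirr : ρ.residual.IsAbsolutelyIrreducible)
    (J : Type) [AddCommGroup J] [Module (AnemicAlg S) J] [DistribMulAction GQ J]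
    [SMulCommClass GQ (AnemicAlg S) J]
    (hsmooth : ∀ x : J, ∃ L : IntermediateField ℚ (AlgebraicClosure ℚ), FiniteDimensional ℚ L ∧
      ∀ g : GQ, (∀ y ∈ L, g y = y) → g • x = x)
    (hfrob : ∀ (ℓ : ℕ) (hℓ : ℓ.Prime) (hℓS : ℓ ∉ S), ∀ A : ValuationSubring (AlgebraicClosure ℚ),
      A.LiesOverPrime ℓ → ∀ σ : GQ, A.IsFrobeniusAt σ ℓ → ∀ x : J, (∃ n : ℕ, p ^ n • x = 0) →
        σ • x + ℓ • σ⁻¹ • x = (MvPolynomial.X ⟨⟨ℓ, hℓ⟩, hℓS⟩ : AnemicAlg S) • x)
    (hfin : Finite {x : J // p • x = 0})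
    (hsupp : ∀ α : 𝒪, (∀ m, α ∈ (annTors J (p ^ m)).map ψ) → α = 0)
    (I : Ideal 𝒪) [Finite (𝒪 ⧸ I)] :
    ∃ (n : ℕ) (𝔞 : Ideal 𝒪), 𝔞 ≤ I ∧ Finite (𝒪 ⧸ 𝔞) ∧
      ∃ (K : Type) (f : K → (ρ.V →+ J)), (∀ k v, p ^ n • f k v = 0) ∧
        (∀ k (g : GQ) v, f k (ρ.ρ g v) = g • f k v) ∧
        (∀ k (a : AnemicAlg S) v, f k (ψ a • v) = a • f k v) ∧
        ∀ v, (∀ k, f k v = 0) ↔ v ∈ 𝔞 • (⊤ : Submodule 𝒪 ρ.V) := by
  have hspan := span_eq_top_of_residual ρ hirr
  -- finiteness of `𝒪 / p^m`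
  have hfinT : ∀ m : ℕ, Finite (𝒪 ⧸ Ideal.span {((p ^ m : ℕ) : 𝒪)}) := by
    intro m
    have : ((p ^ m : ℕ) : 𝒪) ≠ 0 := by
      rw [Nat.cast_ne_zero]
      exact pow_ne_zero _ hp.ne_zero
    exact finite_quotient_of_ne_zero this
  -- the Hecke algebra `R`
  let R := AnemicAlg S
  let algRT : Algebra R 𝒪 := ψ.toAlgebra
  have halg : ∀ a : R, algebraMap R 𝒪 a = ψ a := fun _ => rfl
  have hfinpow := finite_torsion_pow p hfin
  have hfinM : ∀ m : ℕ, Finite (Submodule.torsionBy R J ((p ^ m : ℕ) : R)) := by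
    intro m
    have := hfinpow m
    exact Finite.of_injective (fun x : Submodule.torsionBy R J ((p ^ m : ℕ) : R) =>
      (⟨x.1, (mem_torsionBy_iff' _ _).mp x.2⟩ : {x : J // p ^ m • x = 0}))
      (fun a b h => Subtype.ext (congrArg (fun z : {x : J // p ^ m • x = 0} => (z : J)) h))
  have hkill : ∀ m, ∀ x : Submodule.torsionBy R J ((p ^ m : ℕ) : R), p ^ m • x = 0 := fun m x =>
    Subtype.ext ((mem_torsionBy_iff' _ _).mp x.2)
  obtain ⟨n, 𝔞, hle, hfin𝔞, K, j, f, hj, hf1, hf2, hf3⟩ := exists_family_abstract (R := R) ρ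
    hspan S p (Nat.card {x : J // p • x = 0})
    (M := fun m => Submodule.torsionBy R J ((p ^ m : ℕ) : R))
    (fun m => torsAct R J (p ^ m)) (by
      -- open kernel
      intro m
      choose L hL hL2 using hsmooth
      refine ⟨⨆ x : Submodule.torsionBy R J ((p ^ m : ℕ) : R), L x.1, ?_, fun σ hσ => ?_⟩
      · have : ∀ x : Submodule.torsionBy R J ((p ^ m : ℕ) : R), FiniteDimensional ℚ (L x.1) :=
          fun x => hL x.1
        exact IntermediateField.finiteDimensional_iSup_of_finite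
      · refine LinearMap.ext fun x => Subtype.ext ?_
        exact hL2 x.1 σ fun y hy =>
          hσ y (le_iSup (fun x : Submodule.torsionBy R J ((p ^ m : ℕ) : R) => L x.1) x hy)) hkill
    (by
      intro m
      have := hfin
      exact Nat.card_le_card_of_injective
        (fun y : {y : Submodule.torsionBy R J ((p ^ m : ℕ) : R) // p • y = 0} =>
          (⟨y.1.1, congrArg Subtype.val y.2⟩ : {x : J // p • x = 0}))
        (fun a b h => Subtype.ext (Subtype.ext
          (congrArg (fun z : {x : J // p • x = 0} => (z : J)) h))))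
    (by
      -- Frobenius relations
      intro m ℓ hℓ hℓS A hA σ hσ
      obtain ⟨h1, h2⟩ := hρ ℓ hℓ hℓS A hA σ hσ
      refine ⟨MvPolynomial.X ⟨⟨ℓ, hℓ⟩, hℓS⟩, (ℓ : R), ?_, ?_, ?_⟩
      · rw [h1, halg]
      · rw [h2, map_natCast]
      · refine LinearMap.ext fun x => Subtype.ext ?_
        have hx : p ^ m • (x : J) = 0 := (mem_torsionBy_iff' _ _).mp x.2
        have h := hfrob ℓ hℓ hℓS A hA σ hσ (x : J) ⟨m, hx⟩
        show σ • (x : J) + (ℓ : R) • (σ⁻¹ • (x : J)) = MvPolynomial.X _ • (x : J)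
        rw [Nat.cast_smul_eq_nsmul]
        exact h)
    (by
      -- support
      intro α hα
      refine hsupp α fun m => ?_
      have h1 := hα m
      refine Ideal.map_mono ?_ h1
      intro a ha x hx
      have h2 := Module.mem_annihilator.mp ha ⟨x, (mem_torsionBy_iff' _ _).mpr hx⟩
      exact congrArg Subtype.val h2)
    inferInstance I
  refine ⟨n, 𝔞, hle, hfin𝔞, K, fun k => (Submodule.subtype _).toAddMonoidHom.comp (f k),
    ?_, ?_, ?_, ?_⟩
  · intro k v
    have h1 : p ^ (j k) • (f k v : J) = 0 := (mem_torsionBy_iff' _ _).mp (f k v).2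
    show p ^ n • (f k v : J) = 0
    rw [show n = (n - j k) + j k by have := hj k; omega, pow_add, mul_smul, h1, smul_zero]
  · intro k g v
    exact congrArg Subtype.val (hf1 k g v)
  · intro k a v
    exact congrArg Subtype.val (hf2 k a v)
  · intro v
    rw [← hf3 v]
    constructor
    · intro h k
      exact Subtype.ext (h k)
    · intro h k
      exact congrArg Subtype.val (h k)

/-- **Support on one eigenspace of an involution.** -/
theorem exists_sign_support (hp𝒪 : (p : 𝒪) ∈ maximalIdeal 𝒪)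
    {R : Type} [CommRing R] (ψ : R →+* 𝒪)
    (J : Type) [AddCommGroup J] [Module R J]
    (hsupp : ∀ (m : ℕ) (a : R), (∀ x : J, p ^ m • x = 0 → a • x = 0) → (p : 𝒪) ^ m ∣ ψ a)
    (Jp Jm : Submodule R J)
    (w : J →ₗ[R] J) (hww : ∀ x, w (w x) = x) (hJp : ∀ x, w x = x → x ∈ Jp)
    (hJm : ∀ x, w x = -x → x ∈ Jm) :
    (∀ α : 𝒪, (∀ m, α ∈ (annTors Jp (p ^ m)).map ψ) → α = 0) ∨
    (∀ α : 𝒪, (∀ m, α ∈ (annTors Jm (p ^ m)).map ψ) → α = 0) := by
  by_contra hcon
  push Not at hcon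
  obtain ⟨⟨α, hα, hα0⟩, ⟨β, hβ, hβ0⟩⟩ := hcon
  have hle : ∀ m : ℕ, annTors Jp (p ^ m) * annTors Jm (p ^ m) ≤
      (Ideal.span {(p : 𝒪) ^ m}).comap ψ := by
    intro m
    rw [Ideal.mul_le]
    intro a ha b hb
    rw [Ideal.mem_comap, Ideal.mem_span_singleton]
    refine hsupp m _ fun x hx => ?_
    have h1 : a • (x + w x) = 0 := by
      have hmem : x + w x ∈ Jp := hJp _ (by rw [map_add, hww, add_comm])
      have := ha ⟨x + w x, hmem⟩ (Subtype.ext (by
        show p ^ m • (x + w x) = 0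
        rw [smul_add, ← map_nsmul, hx, map_zero, add_zero]))
      exact congrArg Subtype.val this
    have h2 : w (a • x) = -(a • x) := by
      rw [map_smul]
      rw [smul_add] at h1
      exact eq_neg_of_add_eq_zero_right h1
    have h3 := hb ⟨a • x, hJm _ h2⟩ (Subtype.ext (by
      show p ^ m • (a • x) = 0
      rw [smul_comm, hx, smul_zero]))
    rw [mul_comm, mul_smul]
    exact congrArg Subtype.val h3
  have hmem : ∀ m : ℕ, α * β ∈ maximalIdeal 𝒪 ^ m := by
    intro m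
    have h1 := Ideal.mul_mem_mul (hα m) (hβ m)
    rw [← Ideal.map_mul] at h1
    have h2 : Ideal.map ψ (annTors Jp (p ^ m) * annTors Jm (p ^ m) : Ideal R) ≤
        Ideal.span {(p : 𝒪) ^ m} :=
      Ideal.map_le_iff_le_comap.mpr (hle m)
    have h3 := Ideal.mem_span_singleton.mp (h2 h1)
    obtain ⟨c, hc⟩ := h3
    rw [hc]
    exact Ideal.mul_mem_right _ _ (Ideal.pow_mem_pow hp𝒪 m)
  have hinf : α * β ∈ ⨅ m : ℕ, maximalIdeal 𝒪 ^ m := by
    rw [Ideal.mem_iInf]
    exact hmem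
  rw [Ideal.iInf_pow_eq_bot_of_isLocalRing _ (maximalIdeal.isMaximal 𝒪).ne_top,
    Ideal.mem_bot] at hinf
  exact (mul_ne_zero hα0 hβ0) hinf

end Main

end

end Fermat.Agent.DR.OrdAll
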