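import Fermat.Agent.DR.OrdAll.NormRed
import Fermat.Agent.DR.Ord.Final
import Fermat.Agent.DR.ModGal.FrobCompat

/-!
# Frobenius at `p` on `J₀(Mp)[p^m]` modulo the toric part

For `x ∈ J₀(Mp)[m]` killed by the two push-forwards to level `M` and a Frobenius element `σ` at
`p ∤ M`, the class `σ x + w x` is toric (any prime `p`, any `m`).
-/

set_option autoImplicit false
set_option linter.unusedSectionVars false

noncomputable section

open ModularCurve AlgebraicCurve Fermat.Agent.RR Fermat.Agent.S28 Fermat.Agent.JRED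
  Fermat.Agent.JRED.ES Fermat.Agent.Jan.HeckeNorm Fermat.Agent.Jan.HeckeInputs
  Fermat.Agent.DR.S36 Fermat.Agent.DR.Mod Fermat.Agent.DR.Ord
  Fermat.Agent.JRED.ESGalois Fermat.Agent.JRED.ESSemi

namespace Fermat.Agent.DR.OrdAll

section Norm

variable {K E F : Type*} [Field K] [IsAlgClosed K] [Field E] [Field F] [Algebra K E] [Algebra K F]
  [FunctionField K F] [FunctionField K E]

/-- The norm of a representative of a class killed by the push-forward is an `m`-th power. -/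
theorem exists_normAlong_eq_pow {m : ℕ} (hm : 0 < m) (φ : E →ₐ[K] F) (hfin : FiniteAlong K φ)
    (hφ : φ.toRingHom.IsIntegral) (hN : NormFormulaAlong K φ hfin)
    {D : Divisor.degZero (K := K) (F := F)} {f : F} (hf0 : f ≠ 0)
    (hdiv : ∀ P, (m : ℤ) * (D : Divisor K F) P = P.ord f) (hx : PushZero φ (Pic0.mk D)) :
    ∃ v : E, v ≠ 0 ∧ normAlong φ f = v ^ m := by
  obtain ⟨v, hv0, hv⟩ := hx hφ D rfl
  have hNf : ∀ P : Place K E, P.ord (normAlong φ f) = m * P.ord v := by
    intro P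
    rw [← pushforwardAlong_eq_ord φ hφ hfin hN (D := m • (D : Divisor K F)) hf0
      (fun w => by rw [Finsupp.smul_apply, nsmul_eq_mul, hdiv]) P, map_nsmul, Finsupp.smul_apply,
      nsmul_eq_mul, hv]
  exact eq_const_mul_pow hm (normAlong_ne_zero φ hfin hf0) hv0 hNf

end Norm

section Root

variable {K F k Fk : Type*} [Field K] [Field F] [Algebra K F] [Field k] [Field Fk] [Algebra k Fk]
  [IsAlgClosed k] {A : ValuationSubring K} {π : A →+* k}

/-- The reduction of an `m`-th power is an `m`-th power. -/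
theorem exists_root_of_red (hπ : Function.Surjective π) (R : RedDatum K F k Fk A π) {m : ℕ}
    (hm : 0 < m) {v : F} (hv : v ≠ 0) {u : Fk} (hu : u ≠ 0) (h : R.Red (v ^ m) u) :
    ∃ t : Fk, t ≠ 0 ∧ u = t ^ m := by
  obtain ⟨c, hc, s, hs, hcs⟩ := R.normalize v hv
  have h2 := RedDatum.div hπ h (RedDatum.pow hcs m) (pow_ne_zero m hs)
  have hc' : algebraMap K F c ≠ 0 := by simpa using hc
  have h3 : v ^ m / (algebraMap K F c * v) ^ m = algebraMap K F ((c ^ m)⁻¹) := by
    rw [mul_pow, map_inv₀, map_pow]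
    field_simp
  rw [h3] at h2
  have hA := RedDatum.mem_of_red_const hπ h2
  have h4 := R.unique (R.const ⟨_, hA⟩) h2
  obtain ⟨d, hd⟩ := IsAlgClosed.exists_pow_nat_eq (π ⟨_, hA⟩) hm
  have h5 : u = (algebraMap k Fk d * s) ^ m := by
    rw [mul_pow, ← map_pow, hd, h4, div_mul_cancel₀ _ (pow_ne_zero m hs)]
  refine ⟨_, ?_, h5⟩
  intro h0
  rw [h0, zero_pow hm.ne'] at h5
  exact hu h5

end Root

section InTorus

variable {K F k F₁ F₂ : Type*} [Field K] [Field F] [Algebra K F] [Field k] [Field F₁] [Field F₂]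
  [Algebra k F₁] [Algebra k F₂] [IsAlgClosed K] [IsAlgClosed k] [FunctionField K F]
  [FunctionField k F₁] [FunctionField k F₂] {A : ValuationSubring K} {π : A →+* k}

/-- A class with a representative whose reductions are `m`-th powers is toric. -/
theorem inTorus_of_pow_pow {X : NodalDatum K F k F₁ F₂ A π} {m : ℕ}
    {D : Divisor.degZero (K := K) (F := F)} {f : F} {u : F₁ × F₂}
    (H : IsRootDiv X m (D : Divisor K F) f u) {t₁ : F₁} {t₂ : F₂} (h₁ : u.1 = t₁ ^ m)
    (h₂ : u.2 = t₂ ^ m) : InTorus X m (Pic0.mk D) := by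
  have ht₁ : t₁ ≠ 0 := by
    rintro rfl
    rw [zero_pow H.pos.ne'] at h₁
    exact H.ne₁ h₁
  have ht₂ : t₂ ≠ 0 := by
    rintro rfl
    rw [zero_pow H.pos.ne'] at h₂
    exact H.ne₂ h₂
  have hdeg₁ : divOf (K := k) t₁ ∈ Divisor.degZero (K := k) (F := F₁) :=
    Divisor.mem_degZero.mpr (degree_divOf t₁)
  have hdeg₂ : divOf (K := k) t₂ ∈ Divisor.degZero (K := k) (F := F₂) :=
    Divisor.mem_degZero.mpr (degree_divOf t₂)
  refine Spec.inTorus ⟨D, f, u, ⟨divOf t₁, hdeg₁⟩, ⟨divOf t₂, hdeg₂⟩, rfl, ?_, ?_, H, fun P => ?_,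
    fun P => ?_⟩
  · exact pic0_mk_eq_zero_iff.mpr (isPrincipal_divOf ht₁)
  · exact pic0_mk_eq_zero_iff.mpr (isPrincipal_divOf ht₂)
  · rw [h₁, ord_pow, divOf_apply]
  · rw [h₂, ord_pow, divOf_apply]

end InTorus

section Modular

local notation "Qbar" => AlgebraicClosure ℚ

variable {A : ValuationSubring (AlgebraicClosure ℚ)} {k : Type} [Field k] {π : A →+* k}
  {M p : ℕ} [NeZero M] [hpf : Fact p.Prime] [ExpChar k p] [IsAlgClosed k] [CharP k p]
  {w : laurentBaseChange (AlgebraicClosure ℚ) (modularFunctionFieldFull (M * p)) ≃ₐ[AlgebraicClosure ℚ]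
      laurentBaseChange (AlgebraicClosure ℚ) (modularFunctionFieldFull (M * p))}

theorem root_alpha (hpM : ¬ p ∣ M) (S : Setup π w) {m : ℕ} (hm : 0 < m)
    {f : modularFunctionFieldBar (M * p)}
    {u : modularFunctionFieldFullC k M × modularFunctionFieldFullC k M}
    (h : Red₂ (redOne S) (redTwo S) f u) (h₁ : u.1 ≠ 0) (h₂ : u.2 ≠ 0)
    {v : modularFunctionFieldBar M} (hv0 : v ≠ 0)
    (hv : normAlong (heckeAlphaBar (AlgebraicClosure ℚ) M p) f = v ^ m) :
    ∃ t, u.1 * (coeffSemi M (frobeniusEquiv k p) • u.2) = t ^ m := by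
  have h3 := gred_norm (degenAlpha hpM S) (u₁ := (u.1 : LaurentSeries k))
    (u₂ := (u.2 : LaurentSeries k)) h.1 h.2
  rw [hv] at h3
  have h4 : (redOne S).Red (heckeAlphaBar (AlgebraicClosure ℚ) M p v ^ m)
      (u.1 * (coeffSemi M (frobeniusEquiv k p) • u.2)) := by
    rw [redOne_red, ← map_pow, coe_heckeAlphaBar]
    exact h3
  have hne : heckeAlphaBar (AlgebraicClosure ℚ) M p v ≠ 0 := (map_ne_zero _).mpr hv0
  have hne2 : coeffSemi M (frobeniusEquiv k p) • u.2 ≠ 0 := by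
    rw [SemilinearAut.smul_def]
    exact (map_ne_zero_iff _ (SemilinearAut.toRingAut _).injective).mpr h₂
  obtain ⟨t, -, ht⟩ := exists_root_of_red S.surj (redOne S) hm hne (mul_ne_zero h₁ hne2) h4
  exact ⟨t, ht⟩

theorem root_beta (hpM : ¬ p ∣ M) (S : Setup π w) {m : ℕ} (hm : 0 < m)
    {f : modularFunctionFieldBar (M * p)}
    {u : modularFunctionFieldFullC k M × modularFunctionFieldFullC k M}
    (h : Red₂ (redOne S) (redTwo S) f u) (h₁ : u.1 ≠ 0) (h₂ : u.2 ≠ 0)
    {v : modularFunctionFieldBar M} (hv0 : v ≠ 0)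
    (hv : normAlong (heckeBetaBar (AlgebraicClosure ℚ) M p) f = v ^ m) :
    ∃ t, u.2 * (coeffSemi M (frobeniusEquiv k p) • u.1) = t ^ m := by
  have h3 := gred_norm (degenBeta hpM S) (u₁ := (u.2 : LaurentSeries k))
    (u₂ := (u.1 : LaurentSeries k)) h.2 h.1
  rw [hv] at h3
  have h4 : (redOne S).Red (heckeAlphaBar (AlgebraicClosure ℚ) M p v ^ m)
      (u.2 * (coeffSemi M (frobeniusEquiv k p) • u.1)) := by
    rw [redOne_red, ← map_pow, coe_heckeAlphaBar]
    exact h3
  have hne : heckeAlphaBar (AlgebraicClosure ℚ) M p v ≠ 0 := (map_ne_zero _).mpr hv0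
  have hne2 : coeffSemi M (frobeniusEquiv k p) • u.1 ≠ 0 := by
    rw [SemilinearAut.smul_def]
    exact (map_ne_zero_iff _ (SemilinearAut.toRingAut _).injective).mpr h₁
  obtain ⟨t, -, ht⟩ := exists_root_of_red S.surj (redOne S) hm hne (mul_ne_zero h₂ hne2) h4
  exact ⟨t, ht⟩

variable [FunctionField (AlgebraicClosure ℚ) (modularFunctionFieldBar (M * p))]
  [FunctionField (AlgebraicClosure ℚ) (modularFunctionFieldBar M)]
  [FunctionField k (modularFunctionFieldFullC k M)]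

/-- Root divisors under the Atkin–Lehner automorphism. -/
theorem isRootDiv_w (S : Setup π w) (hw : ∀ f, w (w f) = f)
    {X : NodalDatum (AlgebraicClosure ℚ) (modularFunctionFieldBar (M * p)) k
      (modularFunctionFieldFullC k M) (modularFunctionFieldFullC k M) A π}
    (h1 : X.R₁ = redOne S) (h2 : X.R₂ = redTwo S) {m : ℕ}
    {D : Divisor (AlgebraicClosure ℚ) (modularFunctionFieldBar (M * p))}
    {f : modularFunctionFieldBar (M * p)}
    {u : modularFunctionFieldFullC k M × modularFunctionFieldFullC k M}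
    (H : IsRootDiv X m D f u) :
    IsRootDiv X m (SemilinearAut.ofAlgAut w • D) (w f) (u.2, u.1) where
  pos := H.pos
  ne_zero := (map_ne_zero_iff _ w.injective).mpr H.ne_zero
  div_eq := smul_div_eq (SemilinearAut.ofAlgAut w) H.div_eq
  red := by
    have h := H.red
    rw [h1, h2] at h ⊢
    refine ⟨h.2, ?_⟩
    rw [redTwo_red, hw]
    exact h.1
  ne₁ := H.ne₂
  ne₂ := H.ne₁

/-- **Frobenius plus Atkin–Lehner is toric on the `p`-new part.** -/
theorem inTorus_frob_add_w (hpM : ¬ p ∣ M) (S : Setup π w) (hw : ∀ f, w (w f) = f)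
    {X : NodalDatum (AlgebraicClosure ℚ) (modularFunctionFieldBar (M * p)) k
      (modularFunctionFieldFullC k M) (modularFunctionFieldFullC k M) A π}
    (hX : IsModularNodal S X) {m : ℕ} (hm : 0 < m) {x : JZero (M * p)} (hx : m • x = 0)
    (hα : PushZero (heckeAlphaBar (AlgebraicClosure ℚ) M p) x)
    (hβ : PushZero (heckeBetaBar (AlgebraicClosure ℚ) M p) x)
    {σ : AlgebraicClosure ℚ ≃ₐ[ℚ] AlgebraicClosure ℚ} (hσ : A.IsFrobeniusAt σ p) :
    InTorus X m (σ • x + (SemilinearAut.ofAlgAut w •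
      (x : Pic0 (AlgebraicClosure ℚ) (modularFunctionFieldBar (M * p))) : JZero (M * p))) := by
  have hp := hpf.out
  have i1 := isFF1_modular (AlgebraicClosure ℚ) Jan.DegreeWiring.jAlg M
  obtain ⟨D, f, u, rfl, H⟩ := exists_rep X hm hx
  have hred : Red₂ (redOne S) (redTwo S) f u := by
    have := H.red
    rwa [hX.eq₁, hX.eq₂] at this
  obtain ⟨v₁, hv₁, hN₁⟩ := exists_normAlong_eq_pow hm (heckeAlphaBar (AlgebraicClosure ℚ) M p)
    (degenAlpha (k := k) hpM S).fin
    (heckeAlphaBarIntegral (AlgebraicClosure ℚ) M p Jan.DegreeWiring.jAlg)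
    (Jan.RelFundamental.normFormulaAlong _ _) H.ne_zero H.div_eq hα
  obtain ⟨v₂, hv₂, hN₂⟩ := exists_normAlong_eq_pow hm (heckeBetaBar (AlgebraicClosure ℚ) M p)
    (degenBeta (k := k) hpM S).fin
    (heckeBetaBarIntegral (AlgebraicClosure ℚ) M p Jan.DegreeWiring.jAlg)
    (Jan.RelFundamental.normFormulaAlong _ _) H.ne_zero H.div_eq hβ
  obtain ⟨t₁, ht₁⟩ := root_alpha hpM S hm hred H.ne₁ H.ne₂ hv₁ hN₁
  obtain ⟨t₂, ht₂⟩ := root_beta hpM S hm hred H.ne₁ H.ne₂ hv₂ hN₂
  have hres : IsResidual π σ (frobeniusEquiv k p) :=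
    isResidual_of_frobenius S.surj hσ _ (fun x => rfl)
  have C := ModGal.isCompat_decomposition S hX.eq₁ hX.eq₂ hX.shift hX.complete hres
  have H₁ := C.isRootDiv H
  have H₂ := isRootDiv_w S hw hX.eq₁ hX.eq₂ H
  have H₃ := H₁.mul H₂
  have h4 := inTorus_of_pow_pow (D := SemilinearAut.degZeroSMulHom
    (arithmeticGalois (modularFunctionFieldFull (M * p)) σ) D +
      SemilinearAut.degZeroSMulHom (SemilinearAut.ofAlgAut w) D) H₃ (t₁ := t₂) (t₂ := t₁)
    (by rw [← ht₂]; exact mul_comm _ _) (by rw [← ht₁]; exact mul_comm _ _)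
  exact h4

end Modular

end Fermat.Agent.DR.OrdAll
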