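import Fermat.Agent.DR.OrdAll.Frob
import Fermat.Agent.DR.Ord.Final
import Fermat.Agent.DR.ModGal.ALJ
import Fermat.Agent.JAN.DegeneracyBar

/-!
# The toric filtration of `J₀(Mp)[p^∞]` at places above `p`: the full package
-/

set_option autoImplicit false
set_option linter.unusedSectionVars false

noncomputable section

open ModularCurve AlgebraicCurve Fermat.Agent.RR Fermat.Agent.JRED Fermat.Agent.JRED.ES
  Fermat.Agent.DR.S36 Fermat.Agent.DR.Mod Fermat.Agent.JRED.ESGalois

namespace Fermat.Agent.DR.OrdAll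

open Fermat.Agent.DR.Ord Fermat.Agent.DR.ModGal Fermat.Agent.JAN.Degeneracy

local notation "Qb" => AlgebraicClosure ℚ
local notation "Γℚ" => (AlgebraicClosure ℚ ≃ₐ[ℚ] AlgebraicClosure ℚ)

section Push

variable {M p : ℕ} [NeZero M] [NeZero p]

theorem pushZero_alpha {x : JZero (M * p)} (h : alphaPush M p x = 0) :
    PushZero (heckeAlphaBar Qb M p) x := by
  intro hφ D hD
  subst hD
  exact pic0_mk_eq_zero_iff.mp h

theorem pushZero_beta {x : JZero (M * p)} (h : betaPush M p x = 0) :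
    PushZero (heckeBetaBar Qb M p) x := by
  intro hφ D hD
  subst hD
  exact pic0_mk_eq_zero_iff.mp h

end Push

/-- **The toric filtration of `J₀(Mp)[p^∞]`**, `p ∤ M`, at a place `A` above `p`:
`Kr m` is the toric part of `J₀(Mp)[p^m]`. -/
structure ToricFil (M p : ℕ) [NeZero M] [NeZero p] (w : laurentBaseChange (AlgebraicClosure ℚ)
      (modularFunctionFieldFull (M * p)) ≃ₐ[AlgebraicClosure ℚ]
      laurentBaseChange (AlgebraicClosure ℚ) (modularFunctionFieldFull (M * p)))
    (A : ValuationSubring (AlgebraicClosure ℚ)) (Kr : ℕ → AddSubgroup (JZero (M * p))) : Prop where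
  torsion : ∀ (m : ℕ), ∀ x ∈ Kr m, p ^ m • x = 0
  inertia : ∀ (m : ℕ) (x : JZero (M * p)), p ^ m • x = 0 → ∀ τ ∈ A.inertiaSubgroupIn ℚ,
    τ • x - x ∈ Kr m
  frob : ∀ (m : ℕ) (x : JZero (M * p)), p ^ m • x = 0 → alphaPush M p x = 0 →
    betaPush M p x = 0 → ∀ φ : Γℚ, A.IsFrobeniusAt φ p → φ • x + wJ w x ∈ Kr m
  mult : ∀ m : ℕ, 1 ≤ m → ∀ x ∈ Kr m, p • x = 0 → alphaPush M p x = 0 → betaPush M p x = 0 →
    ∀ τ ∈ A.inertiaSubgroupIn ℚ, ∀ a : ℕ,
      (∀ ζ : AlgebraicClosure ℚ, ζ ^ p = 1 → τ ζ = ζ ^ a) → τ • x = a • x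
  decomposition : ∀ (m : ℕ), ∀ g ∈ A.decompositionSubgroup ℚ, ∀ x ∈ Kr m, g • x ∈ Kr m
  atkin : ∀ (m : ℕ), ∀ x ∈ Kr m, wJ w x ∈ Kr m

section

variable {A : ValuationSubring (AlgebraicClosure ℚ)} {k : Type} [Field k]
    {π : A →+* k} {M p : ℕ} [NeZero M] [hpf : Fact p.Prime] [IsAlgClosed k] [CharP k p]
    [ExpChar k p]
    {w : laurentBaseChange (AlgebraicClosure ℚ) (modularFunctionFieldFull (M * p))
      ≃ₐ[AlgebraicClosure ℚ]
      laurentBaseChange (AlgebraicClosure ℚ) (modularFunctionFieldFull (M * p))}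
    [FunctionField (AlgebraicClosure ℚ) (modularFunctionFieldBar (M * p))]
    [FunctionField (AlgebraicClosure ℚ) (modularFunctionFieldBar M)]
    [FunctionField k (modularFunctionFieldFullC k M)]

theorem toricFil_aux
    (hA : A.LiesOverPrime p) (hpM : ¬ p ∣ M) (S : Setup π w)
    {X : NodalDatum (AlgebraicClosure ℚ) (modularFunctionFieldBar (M * p)) k
      (modularFunctionFieldFullC k M) (modularFunctionFieldFullC k M) A π}
    (hX : IsModularNodal S X) :
    ToricFil M p w A (fun m => toric X S.surj (p ^ m) (pow_pos hpf.out.pos m)) := by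
  have hp := hpf.out
  have hw := isAL_involutive hp S.al
  refine ⟨?_, ?_, ?_, ?_, ?_, ?_⟩
  · intro m x hx
    have h1 : InTorus X (p ^ m) x := hx
    obtain ⟨D, f, rfl, H⟩ := h1
    have h2 : (p ^ m • Pic0.mk D : Pic0 (AlgebraicClosure ℚ) (modularFunctionFieldBar (M * p))) =
        Pic0.mk (p ^ m • D) := rfl
    refine h2.trans (pic0_mk_eq_zero_iff.mpr ⟨f, H.ne_zero, fun P => ?_⟩)
    rw [← H.div_eq P]
    show (((p ^ m • D : Divisor.degZero (K := AlgebraicClosure ℚ)
      (F := modularFunctionFieldBar (M * p))) : Divisor _ _)) P = _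
    rw [AddSubgroup.coe_nsmul, Finsupp.smul_apply, nsmul_eq_mul]
  · intro m x hx τ hτ
    obtain ⟨a, ha, -, -⟩ := hX.shift
    have C := ModGal.isCompat_inertia hp S X hX.eq₁ hX.eq₂ ha
      (ESGalois.isResidual_one_of_inertia S.surj hτ)
    exact inTorus_smul_sub S.surj C (pow_pos hp.pos m) hx
  · intro m x hx hα hβ φ hφ
    exact inTorus_frob_add_w hpM S hw hX (pow_pos hp.pos m) hx (pushZero_alpha hα)
      (pushZero_beta hβ) hφ
  · intro m hm x hx hpx hα hβ τ hτ a ha
    exact modular_smul_eq_nsmul hA hpM S hX hpx (inTorus_of_pow S.surj hpx hm hx)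
      (pushZero_alpha hα) (pushZero_beta hβ) hτ ha
  · intro m g hg x hx
    obtain ⟨r, hr⟩ := exists_isResidual S.surj hg
    exact InTorus.smul (ModGal.isCompat_decomposition S hX.eq₁ hX.eq₂ hX.shift hX.complete hr) hx
  · intro m x hx
    have h1 : InTorus X (p ^ m) x := hx
    obtain ⟨D, f, rfl, H⟩ := h1
    exact ⟨SemilinearAut.degZeroSMulHom (SemilinearAut.ofAlgAut w) D, w f, rfl,
      isRootDiv_w S hw hX.eq₁ hX.eq₂ H⟩

end

/-- **The toric filtration**, for every Atkin–Lehner automorphism `w` and every place `A` above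
`p`. -/
theorem exists_toricFil {M p : ℕ} [NeZero M] [hpf : Fact p.Prime] (hpM : ¬ p ∣ M)
    {w : laurentBaseChange (AlgebraicClosure ℚ) (modularFunctionFieldFull (M * p))
      ≃ₐ[AlgebraicClosure ℚ]
      laurentBaseChange (AlgebraicClosure ℚ) (modularFunctionFieldFull (M * p))} (hw : IsAL w)
    (A : ValuationSubring (AlgebraicClosure ℚ)) (hA : A.LiesOverPrime p) :
    ∃ Kr : ℕ → AddSubgroup (JZero (M * p)), ToricFil M p w A Kr := by
  have hp := hpf.out
  have hπ : Function.Surjective (IsLocalRing.residue A) := IsLocalRing.residue_surjective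
  have hchar : CharP (IsLocalRing.ResidueField A) p := charP_of_liesOverPrime hπ hp hA
  have hexp : ExpChar (IsLocalRing.ResidueField A) p := inferInstance
  have hclosed : IsAlgClosed (IsLocalRing.ResidueField A) := isAlgClosed_of_surjective hπ
  have hdeg : DegreeInput M (IsLocalRing.ResidueField A) := degreeInput' (NeZero.ne M) hpM
  have hgood : GoodReduction M (IsLocalRing.ResidueField A) :=
    goodReduction hπ hp (NeZero.ne M) hpM
  have h1 := RH.functionField_bar (M * p)
  have h2 := RH.functionField_bar M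
  have h3 := hdeg.functionField'
  have S : Setup (IsLocalRing.residue A) w := setup_of_isAL hπ hp hpM hw
  obtain ⟨X, hX, -⟩ := exists_modular_nodalDatum hA hpM S hdeg hgood
  exact ⟨_, toricFil_aux hA hpM S hX⟩

end Fermat.Agent.DR.OrdAll
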