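import Fermat.Agent.DR.OrdAll.Family
import Fermat.Agent.DR.OrdAll.Eta
import Fermat.Agent.FlatMatch.New

/-!
# The Steinberg relation at the residue characteristic from a saturated line
-/

set_option autoImplicit false
set_option linter.unusedSectionVars false

noncomputable section

namespace Fermat.Agent.DR.OrdAll

open IsLocalRing Fermat.Agent.P2 Fermat.FlatMatch Fermat.FlatModel FrobExists

local notation "Qb" => AlgebraicClosure ℚ
local notation "Γℚ" => (AlgebraicClosure ℚ ≃ₐ[ℚ] AlgebraicClosure ℚ)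

section Sat

variable {O V : Type} [CommRing O] [IsDomain O] [AddCommGroup V] [Module O V]

/-- The saturation of a submodule. -/
def sat (W : Submodule O V) : Submodule O V where
  carrier := {v | ∃ c : O, c ≠ 0 ∧ c • v ∈ W}
  add_mem' := by
    rintro v v' ⟨c, hc, hv⟩ ⟨c', hc', hv'⟩
    refine ⟨c * c', mul_ne_zero hc hc', ?_⟩
    rw [smul_add]
    refine W.add_mem ?_ ?_
    · rw [mul_comm, mul_smul]
      exact W.smul_mem _ hv
    · rw [mul_smul]
      exact W.smul_mem _ hv'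
  zero_mem' := ⟨1, one_ne_zero, by rw [smul_zero]; exact W.zero_mem⟩
  smul_mem' := by
    rintro a v ⟨c, hc, hv⟩
    refine ⟨c, hc, ?_⟩
    rw [smul_comm]
    exact W.smul_mem _ hv

theorem mem_sat {W : Submodule O V} {v : V} : v ∈ sat W ↔ ∃ c : O, c ≠ 0 ∧ c • v ∈ W := Iff.rfl

theorem le_sat (W : Submodule O V) : W ≤ sat W := fun v hv =>
  ⟨1, one_ne_zero, by rwa [one_smul]⟩

theorem sat_saturated (W : Submodule O V) {c : O} (hc : c ≠ 0) {v : V} (h : c • v ∈ sat W) :
    v ∈ sat W := by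
  obtain ⟨c', hc', hv⟩ := h
  exact ⟨c' * c, mul_ne_zero hc' hc, by rwa [mul_smul]⟩

end Sat

section Aug

variable {O V : Type} [CommRing O] [IsDomain O] [AddCommGroup V] [Module O V]

/-- The submodule generated by the `h v - η(h) v`, `h` in the decomposition group. -/
def aug (P : ValuationSubring (AlgebraicClosure ℚ)) (q : ℕ) (ρ : Γℚ →* Module.End O V) (e : O) :
    Submodule O V :=
  Submodule.span O {w | ∃ h ∈ P.decompositionSubgroup ℚ, ∃ v, w = ρ h v - eta P q e h • v}

variable {P : ValuationSubring (AlgebraicClosure ℚ)} {q : ℕ} {ρ : Γℚ →* Module.End O V} {e : O}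

theorem map_aug (hq : q.Prime) (hP : P.LiesOverPrime q) (he : e * e = 1) {g : Γℚ}
    (hg : g ∈ P.decompositionSubgroup ℚ) {v : V} (hv : v ∈ aug P q ρ e) :
    ρ g v ∈ aug P q ρ e := by
  have hle : aug P q ρ e ≤ (aug P q ρ e).comap (ρ g) := by
    rw [aug, Submodule.span_le]
    rintro _ ⟨h, hh, v, rfl⟩
    rw [SetLike.mem_coe, Submodule.mem_comap, map_sub, map_smul]
    refine Submodule.subset_span ⟨g * h * g⁻¹, mul_mem (mul_mem hg hh) (inv_mem hg), ρ g v, ?_⟩
    rw [eta_conj hq hP he hg hh]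
    congr 1
    rw [← Module.End.mul_apply, ← Module.End.mul_apply, ← map_mul, ← map_mul,
      inv_mul_cancel_right]
  exact hle hv

/-- **A saturated line gives the Steinberg relation.** -/
theorem stRel_of_sat [IsPrincipalIdealRing O] [Module.Finite O V] [Module.Free O V]
    (h2 : Module.finrank O V = 2) (hq : q.Prime) (hP : P.LiesOverPrime q) (he : e * e = 1)
    (h0 : sat (aug P q ρ e) ≠ ⊥) (h1 : sat (aug P q ρ e) ≠ ⊤) :
    StRel P q e (fun g => LinearMap.det (ρ g)) (fun g => ρ g) := by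
  set L := sat (aug P q ρ e) with hL
  obtain ⟨b, hb⟩ := exists_basis_of_saturated h2 L (fun c hc v hv => sat_saturated _ hc hv) h0 h1
  have hη : ∀ h ∈ P.decompositionSubgroup ℚ, ∀ v : V, ρ h v - eta P q e h • v ∈ L := fun h hh v =>
    le_sat _ (Submodule.subset_span ⟨h, hh, v, rfl⟩)
  have hstab : ∀ g ∈ P.decompositionSubgroup ℚ, ∀ v ∈ L, ρ g v ∈ L := by
    rintro g hg v ⟨c, hc, hv⟩
    exact ⟨c, hc, by rw [← map_smul]; exact map_aug hq hP he hg hv⟩
  intro g hg h hh
  -- the scalar action on the line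
  have hb0 : b 0 ∈ L := by rw [hb]; exact Submodule.mem_span_singleton_self _
  obtain ⟨a, ha⟩ : ∃ a : O, a • b 0 = ρ g (b 0) := by
    have := hstab g hg _ hb0
    rw [hb, Submodule.mem_span_singleton] at this
    exact this
  obtain ⟨c, hc⟩ : ∃ c : O, c • b 0 = ρ g (b 1) - eta P q e g • b 1 := by
    have := hη g hg (b 1)
    rw [hb, Submodule.mem_span_singleton] at this
    exact this
  have hc' : ρ g (b 1) = c • b 0 + eta P q e g • b 1 := by rw [hc, sub_add_cancel]
  have hdet : LinearMap.det (ρ g) = a * eta P q e g := by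
    rw [← LinearMap.det_toMatrix b, Matrix.det_fin_two, LinearMap.toMatrix_apply,
      LinearMap.toMatrix_apply, LinearMap.toMatrix_apply, LinearMap.toMatrix_apply, ← ha, hc']
    simp only [map_add, map_smul, Finsupp.add_apply, Finsupp.smul_apply, Module.Basis.repr_self,
      smul_eq_mul]
    rw [Finsupp.single_eq_same, Finsupp.single_eq_same, Finsupp.single_eq_of_ne (by decide),
      Finsupp.single_eq_of_ne (by decide)]
    ring
  have hscal : eta P q e g * LinearMap.det (ρ g) = a := by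
    rw [hdet, mul_comm a, ← mul_assoc, eta_mul_self he, one_mul]
  have hkill : ∀ v ∈ L, (ρ g - algebraMap O (Module.End O V) (eta P q e g *
      LinearMap.det (ρ g))) v = 0 := by
    intro v hv
    rw [hb, Submodule.mem_span_singleton] at hv
    obtain ⟨d, rfl⟩ := hv
    rw [hscal, LinearMap.sub_apply, map_smul, ← ha, Module.algebraMap_end_apply, smul_comm,
      sub_self]
  refine LinearMap.ext fun v => ?_
  rw [Module.End.mul_apply, LinearMap.zero_apply]
  refine hkill _ ?_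
  rw [LinearMap.sub_apply, Module.algebraMap_end_apply]
  exact hη h hh v

end Aug

section Cyc

/-- Inertia at a place over `2` moves the fourth roots of unity. -/
theorem exists_inertia_four (P : ValuationSubring (AlgebraicClosure ℚ))
    (hP : P.LiesOverPrime 2) :
    ∃ σ ∈ P.inertiaSubgroupIn ℚ, ∀ μ : Qb, μ ^ 2 ^ 2 = 1 → σ μ = μ ^ 3 := by
  have hne : NeZero 4 := ⟨by norm_num⟩
  obtain ⟨ζ, hζ⟩ := HasEnoughRootsOfUnity.exists_primitiveRoot Qb 4
  have hsq : ζ ^ 2 = -1 := by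
    have h1 : (ζ ^ 2 - 1) * (ζ ^ 2 + 1) = 0 := by
      have := hζ.pow_eq_one
      linear_combination this
    rcases mul_eq_zero.mp h1 with h | h
    · exfalso
      have h2 : ζ ^ 2 = 1 := sub_eq_zero.mp h
      have := hζ.dvd_of_pow_eq_one 2 h2
      norm_num at this
    · exact eq_neg_of_add_eq_zero_left h
  have hζP : ζ ∈ P := mem_of_root (by norm_num : 0 < 4) hζ.pow_eq_one
  have h2P : (2 : P) ∈ IsLocalRing.maximalIdeal P := by
    rw [← ValuationSubring.coe_mem_nonunits_iff]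
    simpa using! hP
  have hnon : ζ - 1 ∈ P.nonunits := by
    have h1 : (⟨ζ, hζP⟩ - 1 : P) ^ 2 ∈ IsLocalRing.maximalIdeal P := by
      have h2 : (⟨ζ, hζP⟩ - 1 : P) ^ 2 = 2 * (-⟨ζ, hζP⟩) := by
        refine Subtype.ext ?_
        show (ζ - 1) ^ 2 = 2 * (-ζ)
        linear_combination hsq
      rw [h2]
      exact Ideal.mul_mem_right _ _ h2P
    have h3 := (IsLocalRing.maximalIdeal.isMaximal P).isPrime.mem_of_pow_mem _ h1
    rw [← ValuationSubring.coe_mem_nonunits_iff] at h3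
    exact h3
  have hex : ∃ σ ∈ P.inertiaSubgroupIn ℚ, σ ζ ≠ ζ := by
    by_contra hcon
    push Not at hcon
    obtain ⟨z, hz, hζz⟩ := Fermat.Agent.FlatOrd.Unramified.exists_eq_mul_of_fixed P
      Nat.prime_two hP (ζ - 1) (fun σ hσ => by rw [map_sub, hcon σ hσ, map_one]) hnon
    -- `-2 ζ = (ζ - 1) ^ 2 = 4 z ^ 2`
    have h1 : ζ = -(2 * z ^ 2) := by
      have h2 : (2 : Qb) * ζ = 2 * (-(2 * z ^ 2)) := by
        have h3 : (ζ - 1) ^ 2 = (2 * z) ^ 2 := by rw [hζz]; push_cast; ring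
        linear_combination -h3 + hsq
      exact mul_left_cancel₀ two_ne_zero h2
    have h4 : (⟨ζ, hζP⟩ : P) ∈ IsLocalRing.maximalIdeal P := by
      have h5 : (⟨ζ, hζP⟩ : P) = 2 * (-(⟨z, hz⟩ ^ 2)) := by
        refine Subtype.ext ?_
        show ζ = 2 * (-(z ^ 2))
        linear_combination h1
      rw [h5]
      exact Ideal.mul_mem_right _ _ h2P
    have h6 : (1 : P) ∈ IsLocalRing.maximalIdeal P := by
      have h7 : (1 : P) = ⟨ζ, hζP⟩ * ⟨ζ, hζP⟩ ^ 3 := by
        refine Subtype.ext ?_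
        show (1 : Qb) = ζ * ζ ^ 3
        rw [← pow_succ', hζ.pow_eq_one]
      rw [h7]
      exact Ideal.mul_mem_right _ _ h4
    exact (Ideal.ne_top_iff_one _).mp (maximalIdeal.isMaximal P).ne_top h6
  obtain ⟨σ, hσ, hσζ⟩ := hex
  have h3 : σ ζ = ζ ^ 3 := by
    have h4 : (σ ζ - ζ) * (σ ζ + ζ) = 0 := by
      have h5 : (σ ζ) ^ 2 = -1 := by rw [← map_pow, hsq, map_neg, map_one]
      linear_combination h5 - hsq
    rcases mul_eq_zero.mp h4 with h | h
    · exact absurd (sub_eq_zero.mp h) hσζ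
    · rw [eq_neg_of_add_eq_zero_left h, pow_succ, hsq]
      ring
  refine ⟨σ, hσ, fun μ hμ => ?_⟩
  obtain ⟨i, -, rfl⟩ := hζ.eq_pow_of_pow_eq_one (by norm_num at hμ ⊢; exact hμ)
  rw [map_pow, h3, ← pow_mul, ← pow_mul, mul_comm]

variable {𝒪 : Type} [CommRing 𝒪] [IsDomain 𝒪] [IsLocalRing 𝒪]

/-- If `det ρ` is the `p`-adic cyclotomic character, it is non trivial on inertia at `p`. -/
theorem exists_inertia_det_ne_one [CharZero 𝒪] (ρ : GaloisRepAdic 𝒪) {p : ℕ} (hp : p.Prime)
    (hdet : ρ.DetIsCyclotomic p) (P : ValuationSubring (AlgebraicClosure ℚ))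
    (hP : P.LiesOverPrime p) :
    ∃ σ ∈ P.inertiaSubgroupIn ℚ, LinearMap.det (ρ.ρ σ) ≠ 1 := by
  by_cases hp2 : p = 2
  · subst hp2
    obtain ⟨σ, hσ, h⟩ := exists_inertia_four P hP
    refine ⟨σ, hσ, fun h1 => ?_⟩
    have h2 := hdet.2 2 σ 3 h
    rw [h1, Ideal.mem_span_singleton] at h2
    obtain ⟨c, hc⟩ := h2
    have h3 : (2 : 𝒪) * (-1) = 2 * (2 * c) := by
      push_cast at hc
      linear_combination hc
    have h4 := mul_left_cancel₀ (two_ne_zero) h3
    have h5 : (1 : 𝒪) ∈ maximalIdeal 𝒪 := by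
      have h6 : (1 : 𝒪) = ((2 : ℕ) : 𝒪) * (-c) := by
        push_cast
        linear_combination -h4
      rw [h6]
      exact Ideal.mul_mem_right _ _ hdet.1
    exact (Ideal.ne_top_iff_one _).mp (maximalIdeal.isMaximal 𝒪).ne_top h5
  · obtain ⟨σ, hσ, hu⟩ := Fermat.Agent.FlatOrd.Cyc.exists_isUnit_det_sub_one ρ hp hp2 hdet P hP
    refine ⟨σ, hσ, fun h => ?_⟩
    rw [h, sub_self] at hu
    exact not_isUnit_zero hu

end Cyc

end Fermat.Agent.DR.OrdAll
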