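import Fermat.Agent.DR.OrdAll.Eig
import Fermat.Agent.DR.OrdAll.Full
import Fermat.Agent.FlatOrd.S33Component

/-!
# The Steinberg relation at `p` for the `p`-new representations of level `Mp`, any prime `p ∤ M`
-/

set_option autoImplicit false
set_option linter.unusedSectionVars false
set_option linter.style.haveILetI false

noncomputable section

namespace Fermat.Agent.DR.OrdAll

open IsLocalRing Fermat.Agent.P2 Fermat.FlatMatch Fermat.FlatModel FrobExists ModularCurve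
open Fermat.Agent.DR.ModGal Fermat.Agent.JAN.Degeneracy Fermat.Agent.DR.Mod

local notation "Qb" => AlgebraicClosure ℚ
local notation "Γℚ" => (AlgebraicClosure ℚ ≃ₐ[ℚ] AlgebraicClosure ℚ)

/-- The condition that the Frobenius polynomials of `ρ` come from `π`. -/
def CharpolyFrob {N : ℕ} [NeZero N] {S : Finset ℕ} {𝒪 : Type} [CommRing 𝒪] [IsLocalRing 𝒪]
    (π : CuspForm.heckeAlgebra N 2 (↑S : Set ℕ) →+* 𝒪) (ρ : GaloisRepAdic 𝒪) : Prop :=
  ∀ (ℓ : ℕ) (hℓ : ℓ.Prime) (hℓN : ¬ ℓ ∣ N) (hℓS : ℓ ∉ (↑S : Set ℕ)),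
    ∀ A : ValuationSubring (AlgebraicClosure ℚ), A.LiesOverPrime ℓ →
      ∀ σ : AlgebraicClosure ℚ ≃ₐ[ℚ] AlgebraicClosure ℚ, A.IsFrobeniusAt σ ℓ →
        LinearMap.charpoly (ρ.ρ σ) = Polynomial.X ^ 2 -
          Polynomial.C (π (CuspForm.heckeAlgebra.T hℓ hℓN hℓS)) * Polynomial.X +
          Polynomial.C ((ℓ : 𝒪))

section

variable {N : ℕ} [NeZero N] {S : Finset ℕ}
  {𝒪 : Type} [CommRing 𝒪] [IsDomain 𝒪] [IsDiscreteValuationRing 𝒪]

/-- The character of the anemic algebra. -/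
def psi (hNS : ∀ q : ℕ, q.Prime → q ∣ N → q ∈ S)
    (π : CuspForm.heckeAlgebra N 2 (↑S : Set ℕ) →+* 𝒪) : AnemicAlg S →+* 𝒪 :=
  π.comp (anemicEval hNS).toRingHom

theorem psi_apply (hNS : ∀ q : ℕ, q.Prime → q ∣ N → q ∈ S)
    (π : CuspForm.heckeAlgebra N 2 (↑S : Set ℕ) →+* 𝒪) (a : AnemicAlg S) :
    psi hNS π a = π (anemicEval hNS a) := rfl

theorem attached_psi (hNS : ∀ q : ℕ, q.Prime → q ∣ N → q ∈ S)
    {π : CuspForm.heckeAlgebra N 2 (↑S : Set ℕ) →+* 𝒪} {ρ : GaloisRepAdic 𝒪}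
    (h : CharpolyFrob π ρ) : Attached (psi hNS π) ρ := by
  intro ℓ hℓ hℓS A hA σ hσ
  have hℓN : ¬ ℓ ∣ N := fun h => hℓS (hNS ℓ hℓ h)
  have hℓS' : ℓ ∉ (↑S : Set ℕ) := fun h => hℓS (Finset.mem_coe.mp h)
  have hcp := h ℓ hℓ hℓN hℓS' A hA σ hσ
  have hnt : Nontrivial ρ.V := Module.nontrivial_of_finrank_pos (R := 𝒪)
    (by rw [ρ.finrank_eq]; norm_num)
  rw [Fermat.Agent.BN2.charpoly_eq_of_finrank_two ρ.finrank_eq] at hcp
  constructor
  · rw [psi_apply, anemicEval, MvPolynomial.aeval_X]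
    have := congrArg (fun P => Polynomial.coeff P 1) hcp
    simpa [Polynomial.coeff_X, Polynomial.coeff_C] using this
  · have := congrArg (fun P => Polynomial.coeff P 0) hcp
    simpa [Polynomial.coeff_X, Polynomial.coeff_C] using this

end

section

variable (N : ℕ) [NeZero N] (S : Finset ℕ)

/-- `J₀(N)` as a module over the anemic algebra. -/
@[reducible] def anemicModule : Module (AnemicAlg S) (JZero N) :=
  letI := heckeModuleBar N
  Module.compHom (JZero N) (anemicIncl S).toRingHom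

end

section Eig

variable {M p : ℕ} [NeZero M] [NeZero p] {S : Finset ℕ}

/-- The Atkin–Lehner involution as a linear map over the anemic algebra. -/
def wLin (hp : p.Prime) (hpM : ¬ p ∣ M) (hpS : p ∈ S)
    {w : laurentBaseChange Qb (modularFunctionFieldFull (M * p)) ≃ₐ[Qb]
      laurentBaseChange Qb (modularFunctionFieldFull (M * p))} (hw : IsAL w) :
    letI := anemicModule (M * p) S
    JZero (M * p) →ₗ[AnemicAlg S] JZero (M * p) :=
  letI := anemicModule (M * p) S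
  { toFun := wJ w
    map_add' := map_add _
    map_smul' := fun a x => by
      letI := heckeModuleBar (M * p)
      refine wJ_heckeAway hp hpM hw ?_ x
      show anemicIncl S a ∈ heckeAway p
      induction a using MvPolynomial.induction_on with
      | C n =>
        rw [anemicIncl, MvPolynomial.rename_C]
        exact Subalgebra.algebraMap_mem _ n
      | add a b ha hb => rw [map_add]; exact add_mem ha hb
      | mul_X a ℓ ha =>
        rw [map_mul]
        refine mul_mem ha ?_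
        rw [anemicIncl, MvPolynomial.rename_X]
        exact Algebra.subset_adjoin ⟨ℓ.1, fun h => ℓ.2 (h ▸ hpS), rfl⟩ }

end Eig

section Main

variable {M p : ℕ} [NeZero M] [hpf : Fact p.Prime] {S : Finset ℕ}
  {𝒪 : Type} [CommRing 𝒪] [IsDomain 𝒪] [IsDiscreteValuationRing 𝒪]
  [IsAdicComplete (IsLocalRing.maximalIdeal 𝒪) 𝒪]

/-- The sign `e` is supported: the eigenspace `w = -e` of `J₀(Mp)[p^∞]` supports `π`. -/
def SignSupport (hpM : ¬ p ∣ M) (hNS : ∀ q : ℕ, q.Prime → q ∣ M * p → q ∈ S)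
    (π : CuspForm.heckeAlgebra (M * p) 2 (↑S : Set ℕ) →+* 𝒪)
    {w : laurentBaseChange Qb (modularFunctionFieldFull (M * p)) ≃ₐ[Qb]
      laurentBaseChange Qb (modularFunctionFieldFull (M * p))} (hw : IsAL w) (e : ℤ) : Prop :=
  letI := anemicModule (M * p) S
  ∀ α : 𝒪, (∀ m, α ∈ (annTors (eig (wLin hpf.out hpM
    (hNS p hpf.out (dvd_mul_left p M)) hw) e) (p ^ m)).map (psi hNS π)) → α = 0

/-- **The Steinberg relation at `p`, with the sign given by the Atkin–Lehner involution.** -/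
theorem stRel_of_signSupport [Finite (ResidueField 𝒪)] [CharZero 𝒪]
    (hp𝒪 : (p : 𝒪) ∈ maximalIdeal 𝒪) (hpM : ¬ p ∣ M)
    (hNS : ∀ q : ℕ, q.Prime → q ∣ M * p → q ∈ S) (hMS : ∀ q : ℕ, q.Prime → q ∣ M → q ∈ S)
    (π : CuspForm.heckeAlgebra (M * p) 2 (↑S : Set ℕ) →+* 𝒪) (ρ : GaloisRepAdic 𝒪)
    (hcharpoly : CharpolyFrob π ρ) (hirr : ρ.residual.IsAbsolutelyIrreducible)
    (t : AnemicAlg S) (ht : anemicEval (N := M) hMS t = 0) (hπt : π (anemicEval hNS t) ≠ 0)
    {w : laurentBaseChange Qb (modularFunctionFieldFull (M * p)) ≃ₐ[Qb]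
      laurentBaseChange Qb (modularFunctionFieldFull (M * p))} (hw : IsAL w)
    {e : ℤ} (he : e = 1 ∨ e = -1) (hsupp : SignSupport hpM hNS π hw e)
    (A : ValuationSubring (AlgebraicClosure ℚ)) (hA : A.LiesOverPrime p)
    (hns : p ≠ 2 ∨ NonScalarInertia p A ρ) :
    StRel A p (e : 𝒪) (fun g => LinearMap.det (ρ.ρ g)) (fun g => ρ.ρ g) := by
  have hp := hpf.out
  have hpS : p ∈ S := hNS p hp (dvd_mul_left p M)
  have I := FlatOrd.S33.inputs_of_prime (M * p) p hp S
  let _ := heckeModuleBar (M * p)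
  have hcommH : SMulCommClass GQ HeckeAlg (JZero (M * p)) := I.galois_hecke
  have hfrob : FrobeniusQuadratic (K := ℚ) (L := AlgebraicClosure ℚ) (M * p) p (JZero (M * p)) :=
    S30Wiring.frobeniusQuadratic_of_specialization (I.specialization I.galois_hecke)
  have hfin : Finite {x : JZero (M * p) // p • x = 0} := by
    have h := I.finite 1
    rw [pow_one] at h
    exact h
  have hsm : ∀ x : JZero (M * p), ∃ L : IntermediateField ℚ (AlgebraicClosure ℚ),
    FiniteDimensional ℚ L ∧ ∀ g : GQ, (∀ y ∈ L, g y = y) → g • x = x := I.smooth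
  letI modR := anemicModule (M * p) S
  have hsmul : ∀ (a : AnemicAlg S) (x : JZero (M * p)), a • x = anemicIncl S a • x :=
    fun _ _ => rfl
  have hcomm : SMulCommClass Γℚ (AnemicAlg S) (JZero (M * p)) :=
    ⟨fun g a x => by rw [hsmul, hsmul, smul_comm]⟩
  obtain ⟨Kr, hKr⟩ := exists_toricFil hpM hw A hA
  refine stRel_of_new_eig hp hp𝒪 (psi hNS π) ρ (attached_psi hNS hcharpoly) hirr (JZero (M * p))
    hsm ?_ hfin (wLin hp hpM hpS hw) (wJ_galois hp hw) he hsupp A hA
    ((alphaPush M p).ker ⊓ (betaPush M p).ker) ?_ t ?_ hπt Kr hKr.inertia ?_ ?_ hns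
  · intro ℓ hℓ hℓS B hB σ hσ x ⟨n, hn⟩
    have hℓN : ¬ ℓ ∣ M * p := fun h => hℓS (hNS ℓ hℓ h)
    have hℓNp : ¬ ℓ ∣ M * p * p := by
      intro h
      rcases (Nat.Prime.dvd_mul hℓ).mp h with h | h
      · exact hℓN h
      · exact hℓN (h.trans (dvd_mul_left p M))
    have h := hfrob ℓ hℓ hℓNp B hB σ hσ (σ⁻¹ • x)
      ⟨n, (gal_nsmul σ⁻¹ (p ^ n) x).symm.trans
        ((congrArg (fun y : JZero (M * p) => σ⁻¹ • y) hn).trans
          (map_zero (DistribSMul.toAddMonoidHom (JZero (M * p)) σ⁻¹)))⟩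
    rw [smul_inv_smul] at h
    rw [hsmul, anemicIncl, MvPolynomial.rename_X]
    rw [sub_add_eq_add_sub, sub_eq_zero] at h
    exact h
  · rintro g x ⟨h1, h2⟩
    refine ⟨?_, ?_⟩
    · have h1' : alphaPush M p x = 0 := h1
      show alphaPush M p (g • x) = 0
      rw [alphaPush_smul, h1']
      exact map_zero (DistribSMul.toAddMonoidHom (JZero M) g)
    · have h2' : betaPush M p x = 0 := h2
      show betaPush M p (g • x) = 0
      rw [betaPush_smul, h2']
      exact map_zero (DistribSMul.toAddMonoidHom (JZero M) g)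
  · intro n x hx
    have hn : p ^ n ≠ 0 := pow_ne_zero n hp.ne_zero
    refine ⟨?_, ?_⟩
    · show alphaPush M p (anemicIncl S t • x) = 0
      have h1 := alphaPush_anemic (N := M) (q := p) hp hpS t x
      rw [h1]
      exact JAN.AnnFinal.smul_eq_zero_of_torsion hMS ht hn (by rw [← map_nsmul, hx, map_zero])
    · show betaPush M p (anemicIncl S t • x) = 0
      have h1 := betaPush_anemic (N := M) (q := p) hp hpS t x
      rw [h1]
      exact JAN.AnnFinal.smul_eq_zero_of_torsion hMS ht hn (by rw [← map_nsmul, hx, map_zero])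
  · intro m x hx hx0 φ hφ
    exact hKr.frob m x hx hx0.1 hx0.2 φ hφ
  · intro m hm x hx hpx hx0 τ hτ a ha
    exact hKr.mult m hm x hx hpx hx0.1 hx0.2 τ hτ a ha

/-- One of the two signs is supported. -/
theorem exists_signSupport [CharZero 𝒪] (hp𝒪 : (p : 𝒪) ∈ maximalIdeal 𝒪) (hpM : ¬ p ∣ M)
    (hNS : ∀ q : ℕ, q.Prime → q ∣ M * p → q ∈ S)
    (π : CuspForm.heckeAlgebra (M * p) 2 (↑S : Set ℕ) →+* 𝒪)
    {w : laurentBaseChange Qb (modularFunctionFieldFull (M * p)) ≃ₐ[Qb]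
      laurentBaseChange Qb (modularFunctionFieldFull (M * p))} (hw : IsAL w) :
    ∃ e : ℤ, (e = 1 ∨ e = -1) ∧ SignSupport hpM hNS π hw e := by
  have hp := hpf.out
  letI modR := anemicModule (M * p) S
  have I := FlatOrd.S33.inputs_of_prime (M * p) p hp S
  exact exists_eig_support hp𝒪 (psi hNS π) (JZero (M * p))
    (fun m a h => I.support hNS 𝒪 π m a h) (wLin hp hpM (hNS p hp (dvd_mul_left p M)) hw)
    (wJ_wJ hp hw)

/-- **(B)** The Steinberg relation at `p` for the `p`-new representations of level `Mp`, for every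
prime `p ∤ M` (`p = 2` included). -/
theorem exists_stRel_of_new [Finite (ResidueField 𝒪)] [CharZero 𝒪]
    (hp𝒪 : (p : 𝒪) ∈ maximalIdeal 𝒪) (hpM : ¬ p ∣ M)
    (hNS : ∀ q : ℕ, q.Prime → q ∣ M * p → q ∈ S) (hMS : ∀ q : ℕ, q.Prime → q ∣ M → q ∈ S)
    (π : CuspForm.heckeAlgebra (M * p) 2 (↑S : Set ℕ) →+* 𝒪) (ρ : GaloisRepAdic 𝒪)
    (hcharpoly : CharpolyFrob π ρ) (hirr : ρ.residual.IsAbsolutelyIrreducible)
    (t : AnemicAlg S) (ht : anemicEval (N := M) hMS t = 0) (hπt : π (anemicEval hNS t) ≠ 0)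
    (hns : p ≠ 2 ∨ ∃ A : ValuationSubring (AlgebraicClosure ℚ), A.LiesOverPrime p ∧
      NonScalarInertia p A ρ) :
    ∃ e : 𝒪, (e = 1 ∨ e = -1) ∧ ∀ A : ValuationSubring (AlgebraicClosure ℚ),
      A.LiesOverPrime p → StRel A p e (fun g => LinearMap.det (ρ.ρ g)) (fun g => ρ.ρ g) := by
  have hp := hpf.out
  obtain ⟨w, hw⟩ := exists_isAL Qb M p hp hpM
  obtain ⟨e, he, hsupp⟩ := exists_signSupport hp𝒪 hpM hNS π hw
  obtain ⟨A, hA, hns'⟩ : ∃ A : ValuationSubring (AlgebraicClosure ℚ), A.LiesOverPrime p ∧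
      (p ≠ 2 ∨ NonScalarInertia p A ρ) := by
    rcases hns with h | ⟨A, hA, h⟩
    · obtain ⟨A, hA⟩ := exists_liesOverPrime Qb hp
      exact ⟨A, hA, Or.inl h⟩
    · exact ⟨A, hA, Or.inr h⟩
  have h := stRel_of_signSupport hp𝒪 hpM hNS hMS π ρ hcharpoly hirr t ht hπt hw he hsupp A hA hns'
  have hee : (e : 𝒪) * e = 1 := by
    rcases he with rfl | rfl <;> norm_num
  refine ⟨(e : 𝒪), ?_, fun B hB => ?_⟩
  · rcases he with rfl | rfl
    · left; norm_num
    · right; norm_num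
  · refine stRel_of_place hp hA hB hee (fun g h => ?_) h
    have h1 : LinearMap.det (ρ.ρ g) * LinearMap.det (ρ.ρ g⁻¹) = 1 := by
      rw [← map_mul, ← map_mul, mul_inv_cancel, map_one, map_one]
    show LinearMap.det (ρ.ρ (g * h * g⁻¹)) = LinearMap.det (ρ.ρ h)
    simp only [map_mul]
    linear_combination (LinearMap.det (ρ.ρ h)) * h1

end Main

section Residual

variable {𝒪 : Type} [CommRing 𝒪] [IsDomain 𝒪] [IsDiscreteValuationRing 𝒪]
  [IsAdicComplete (IsLocalRing.maximalIdeal 𝒪) 𝒪]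

open scoped TensorProduct in
/-- The residual condition for `p = 2`: some inertia element acts non trivially residually. -/
theorem nonScalarInertia_two {A : ValuationSubring (AlgebraicClosure ℚ)} {ρ : GaloisRepAdic 𝒪}
    {τ : Γℚ} (hτ : τ ∈ A.inertiaSubgroupIn ℚ) (h : ρ.residual.ρ τ ≠ 1) :
    NonScalarInertia 2 A ρ := by
  refine ⟨τ, hτ, 1, fun ζ hζ => ?_, ?_⟩
  · rw [pow_one]
    have hz : (ζ - 1) * (ζ + 1) = 0 := by linear_combination hζ
    rcases mul_eq_zero.mp hz with h | h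
    · rw [sub_eq_zero.mp h, map_one]
    · rw [eq_neg_of_add_eq_zero_left h, map_neg, map_one]
  · by_contra hcon
    push Not at hcon
    apply h
    have hkill : ∀ x ∈ (maximalIdeal 𝒪) • (⊤ : Submodule 𝒪 ρ.V),
        ∀ c : ResidueField 𝒪, c ⊗ₜ[𝒪] x = 0 := by
      intro x hx c
      refine Submodule.smul_induction_on
        (p := fun x => c ⊗ₜ[𝒪] x = (0 : ResidueField 𝒪 ⊗[𝒪] ρ.V)) hx ?_ ?_
      · intro a ha v _
        rw [TensorProduct.tmul_smul, TensorProduct.smul_tmul']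
        have : a • c = 0 := by
          rw [Algebra.smul_def, ResidueField.algebraMap_eq, (residue_eq_zero_iff a).mpr ha,
            zero_mul]
        rw [this, TensorProduct.zero_tmul]
      · intro x y hx hy
        rw [TensorProduct.tmul_add, hx, hy, add_zero]
    refine LinearMap.ext fun x => ?_
    show (ρ.ρ τ).baseChange (ResidueField 𝒪) x = x
    induction x using TensorProduct.induction_on with
    | zero => rw [map_zero]
    | tmul c v =>
      have h1 := hkill _ (hcon v) c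
      rw [Nat.cast_one, one_smul, TensorProduct.tmul_sub, sub_eq_zero] at h1
      rw [LinearMap.baseChange_tmul, h1]
    | add x y hx hy => rw [map_add, hx, hy]

end Residual

end Fermat.Agent.DR.OrdAll
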