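import Fermat.Agent.DR.OrdAll.Line

/-!
# The Steinberg relation at `p` for the `p`-new representations, any prime `p`

Abstract form: a Galois module `J` over the anemic Hecke algebra with an involution `w`, a subgroup
`K0` (the new part) and subgroups `Kr m` (the toric parts) such that inertia acts trivially on
`J[p^m] / Kr m` and Frobenius as `-w` on the new part, and inertia acts through the mod `p`
cyclotomic character on the `p`-torsion new elements of `Kr m`.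
-/

set_option autoImplicit false
set_option linter.unusedSectionVars false

noncomputable section

namespace Fermat.Agent.DR.OrdAll

open IsLocalRing Fermat.Agent.P2 Fermat.FlatMatch Fermat.FlatModel FrobExists

local notation "Qb" => AlgebraicClosure ℚ
local notation "Γℚ" => (AlgebraicClosure ℚ ≃ₐ[ℚ] AlgebraicClosure ℚ)

section Frob

variable {p : ℕ} {J : Type} [AddCommGroup J] [DistribMulAction Γℚ J]

/-- **Action of the decomposition group modulo the toric part.** -/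
theorem smul_sub_eta_mem (hp : p.Prime) {A : ValuationSubring (AlgebraicClosure ℚ)}
    (hA : A.LiesOverPrime p)
    (hsmooth : ∀ x : J, ∃ L : IntermediateField ℚ (AlgebraicClosure ℚ), FiniteDimensional ℚ L ∧
      ∀ g : Γℚ, (∀ y ∈ L, g y = y) → g • x = x)
    (w : J →+ J) (hwg : ∀ (g : Γℚ) x, w (g • x) = g • w x)
    (K0 : AddSubgroup J) (hK0g : ∀ (g : Γℚ), ∀ x ∈ K0, g • x ∈ K0) {m : ℕ} (Kr : AddSubgroup J)
    (hKr : ∀ x : J, p ^ m • x = 0 → ∀ τ ∈ A.inertiaSubgroupIn ℚ, τ • x - x ∈ Kr)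
    (hFr : ∀ x ∈ K0, p ^ m • x = 0 → ∀ φ : Γℚ, A.IsFrobeniusAt φ p → φ • x + w x ∈ Kr)
    {e : ℤ} (he : e * e = 1) {x : J} (hx0 : x ∈ K0) (hxm : p ^ m • x = 0)
    (hwx : w x = -(e • x)) {g : Γℚ} (hg : g ∈ A.decompositionSubgroup ℚ) :
    g • x - eta A p e g • x ∈ Kr := by
  obtain ⟨φ, hφ⟩ := exists_isFrobeniusAt A hp hA
  obtain ⟨L, hL, hLx⟩ := hsmooth x
  obtain ⟨n, τ, hτ, h1, h2⟩ := exists_frob_mul_inertia_eta hp hA hφ hg L
  have hgx : g • x = (φ ^ n * τ) • x := by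
    have h3 := hLx ((φ ^ n * τ)⁻¹ * g) (fun y hy => by
      show (φ ^ n * τ)⁻¹ (g y) = y
      rw [h1 y hy]
      show ((φ ^ n * τ)⁻¹ * (φ ^ n * τ)) y = y
      rw [inv_mul_cancel]
      rfl)
    rw [mul_smul, inv_smul_eq_iff] at h3
    exact h3
  rw [h2 ℤ e he, hgx, mul_smul]
  -- powers of Frobenius
  have hpow : ∀ (n : ℕ) (z : J), z ∈ K0 → p ^ m • z = 0 → w z = -(e • z) →
      (φ ^ n) • z - e ^ n • z ∈ Kr := by
    intro n z hz0 hzm hwz
    induction n with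
    | zero => rw [pow_zero, pow_zero, one_smul, one_smul, sub_self]; exact zero_mem _
    | succ n ih =>
      have h3 := hFr ((φ ^ n) • z) (hK0g _ _ hz0) (by rw [← gal_nsmul, hzm, smul_zero]) φ hφ
      have h4 : w ((φ ^ n) • z) = -(e • (φ ^ n) • z) := by
        rw [hwg, hwz, smul_neg, smul_comm]
      rw [h4] at h3
      have h5 : (φ ^ (n + 1)) • z - e ^ (n + 1) • z =
          (φ • (φ ^ n) • z + -(e • (φ ^ n) • z)) + e • ((φ ^ n) • z - e ^ n • z) := by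
        rw [pow_succ', mul_smul, pow_succ', mul_smul, smul_sub]
        abel
      rw [h5]
      exact add_mem h3 (zsmul_mem ih e)
  have h6 := hpow n (τ • x) (hK0g _ _ hx0) (by rw [← gal_nsmul, hxm, smul_zero])
    (by rw [hwg, hwx, smul_neg, smul_comm])
  have h7 : (φ ^ n) • τ • x - e ^ n • x =
      ((φ ^ n) • τ • x - e ^ n • τ • x) + e ^ n • (τ • x - x) := by
    rw [smul_sub]; abel
  rw [h7]
  exact add_mem h6 (zsmul_mem (hKr x hxm τ hτ) _)

end Frob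

section Main

variable {p : ℕ} {S : Finset ℕ}
  {𝒪 : Type} [CommRing 𝒪] [IsDomain 𝒪] [IsDiscreteValuationRing 𝒪]
  [IsAdicComplete (IsLocalRing.maximalIdeal 𝒪) 𝒪]

/-- Frobenius elements away from `S` have the trace and determinant prescribed by `ψ`. -/
def Attached (ψ : AnemicAlg S →+* 𝒪) (ρ : GaloisRepAdic 𝒪) : Prop :=
  ∀ (ℓ : ℕ) (hℓ : ℓ.Prime) (hℓS : ℓ ∉ S), ∀ A : ValuationSubring (AlgebraicClosure ℚ),
    A.LiesOverPrime ℓ → ∀ σ : Γℚ, A.IsFrobeniusAt σ ℓ →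
      LinearMap.trace 𝒪 ρ.V (ρ.ρ σ) = ψ (MvPolynomial.X ⟨⟨ℓ, hℓ⟩, hℓS⟩) ∧
        LinearMap.det (ρ.ρ σ) = (ℓ : 𝒪)

theorem Attached.detIsCyclotomic {ψ : AnemicAlg S →+* 𝒪} {ρ : GaloisRepAdic 𝒪}
    (h : Attached ψ ρ) (hp : p.Prime) (hp𝒪 : (p : 𝒪) ∈ maximalIdeal 𝒪) :
    ρ.DetIsCyclotomic p := by
  refine Fermat.Agent.FrobCompare.detIsCyclotomic_of_frob Fermat.Agent.CMP.Density.frobDensity ρ
    hp.ne_zero hp𝒪 S ?_
  intro ℓ hℓ hℓS P hP σ hσ
  exact (h ℓ hℓ hℓS P hP σ hσ).2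

/-- The residual condition: some inertia element does not act by the scalar `χ(τ)` modulo `𝔪`. -/
def NonScalarInertia (p : ℕ) (A : ValuationSubring (AlgebraicClosure ℚ)) (ρ : GaloisRepAdic 𝒪) :
    Prop :=
  ∃ τ ∈ A.inertiaSubgroupIn ℚ, ∃ a : ℕ, (∀ ζ : Qb, ζ ^ p = 1 → τ ζ = ζ ^ a) ∧
    ∃ u : ρ.V, ρ.ρ τ u - (a : 𝒪) • u ∉ maximalIdeal 𝒪 • (⊤ : Submodule 𝒪 ρ.V)

/-- **`p`-new: the Steinberg relation, one eigenspace of `w`.** -/
theorem stRel_of_new_aux [Finite (ResidueField 𝒪)] [CharZero 𝒪]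
    (hp : p.Prime) (hp𝒪 : (p : 𝒪) ∈ maximalIdeal 𝒪)
    (ψ : AnemicAlg S →+* 𝒪) (ρ : GaloisRepAdic 𝒪) (hρ : Attached ψ ρ)
    (hirr : ρ.residual.IsAbsolutelyIrreducible)
    (J : Type) [AddCommGroup J] [Module (AnemicAlg S) J] [DistribMulAction Γℚ J]
    [SMulCommClass Γℚ (AnemicAlg S) J]
    (hsmooth : ∀ x : J, ∃ L : IntermediateField ℚ (AlgebraicClosure ℚ), FiniteDimensional ℚ L ∧
      ∀ g : Γℚ, (∀ y ∈ L, g y = y) → g • x = x)
    (hfrob : ∀ (ℓ : ℕ) (hℓ : ℓ.Prime) (hℓS : ℓ ∉ S), ∀ A : ValuationSubring (AlgebraicClosure ℚ),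
      A.LiesOverPrime ℓ → ∀ σ : Γℚ, A.IsFrobeniusAt σ ℓ → ∀ x : J, (∃ n : ℕ, p ^ n • x = 0) →
        σ • x + ℓ • σ⁻¹ • x = (MvPolynomial.X ⟨⟨ℓ, hℓ⟩, hℓS⟩ : AnemicAlg S) • x)
    (hfin : Finite {x : J // p • x = 0})
    (hsupp : ∀ α : 𝒪, (∀ m, α ∈ (annTors J (p ^ m)).map ψ) → α = 0)
    (A : ValuationSubring (AlgebraicClosure ℚ)) (hA : A.LiesOverPrime p)
    (K0 : AddSubgroup J) (t : AnemicAlg S)
    (hK0t : ∀ (n : ℕ) (x : J), p ^ n • x = 0 → t • x ∈ K0) (hπt : ψ t ≠ 0)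
    (Kr : ℕ → AddSubgroup J) {e : ℤ} (he : e = 1 ∨ e = -1)
    (hD : ∀ (m : ℕ) (x : J), p ^ m • x = 0 → x ∈ K0 → ∀ g ∈ A.decompositionSubgroup ℚ,
      g • x - eta A p e g • x ∈ Kr m)
    (hmult : ∀ m : ℕ, 1 ≤ m → ∀ x ∈ Kr m, p • x = 0 → x ∈ K0 →
      ∀ τ ∈ A.inertiaSubgroupIn ℚ, ∀ a : ℕ,
        (∀ ζ : AlgebraicClosure ℚ, ζ ^ p = 1 → τ ζ = ζ ^ a) → τ • x = a • x)
    (hns : p ≠ 2 ∨ NonScalarInertia p A ρ) :
    StRel A p (e : 𝒪) (fun g => LinearMap.det (ρ.ρ g)) (fun g => ρ.ρ g) := by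
  classical
  have hdet : ρ.DetIsCyclotomic p := hρ.detIsCyclotomic hp hp𝒪
  have hee : e * e = 1 := by rcases he with rfl | rfl <;> norm_num
  have heO : (e : 𝒪) * e = 1 := by exact_mod_cast congrArg (Int.cast (R := 𝒪)) hee
  have hcast : ∀ g : Γℚ, ((eta A p e g : ℤ) : 𝒪) = eta A p (e : 𝒪) g := by
    intro g
    unfold eta
    split_ifs
    · rfl
    · exact Int.cast_one
  set W := aug A p ρ.ρ (e : 𝒪) with hW
  refine stRel_of_sat ρ.finrank_eq hp hA heO ?_ ?_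
  -- `L ≠ 0`
  · intro h
    obtain ⟨σ, hσ, hne⟩ := exists_inertia_det_ne_one ρ hp hdet A hA
    apply hne
    have h1 : ρ.ρ σ = 1 := by
      refine LinearMap.ext fun v => ?_
      have h2 : ρ.ρ σ v - eta A p (e : 𝒪) σ • v ∈ sat W :=
        le_sat _ (Submodule.subset_span ⟨σ, inertia_le hσ, v, rfl⟩)
      rw [h, Submodule.mem_bot, sub_eq_zero, eta_inertia hp hA heO hσ, one_smul] at h2
      exact h2
    rw [h1, map_one]
  -- `L ≠ V`
  · intro h
    let b := stdBasis ρ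
    obtain ⟨c, hc0, hc⟩ : ∃ c : 𝒪, c ≠ 0 ∧ ∀ v : ρ.V, c • v ∈ W := by
      have h0 : b 0 ∈ sat W := by rw [h]; trivial
      have h1 : b 1 ∈ sat W := by rw [h]; trivial
      obtain ⟨c0, hc0, hv0⟩ := h0
      obtain ⟨c1, hc1, hv1⟩ := h1
      refine ⟨c0 * c1, mul_ne_zero hc0 hc1, fun v => ?_⟩
      rw [← b.sum_repr v, Fin.sum_univ_two, smul_add]
      refine W.add_mem ?_ ?_
      · rw [smul_comm, mul_comm c0, mul_smul]
        exact W.smul_mem _ (W.smul_mem _ hv0)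
      · rw [smul_comm, mul_smul]
        exact W.smul_mem _ (W.smul_mem _ hv1)
    obtain ⟨ϖ, hϖ⟩ := IsDiscreteValuationRing.exists_irreducible 𝒪
    set s := c * ψ t with hs
    have hs0 : s ≠ 0 := mul_ne_zero hc0 hπt
    have hfinI : Finite (𝒪 ⧸ Ideal.span {ϖ * s}) :=
      finite_quotient_of_ne_zero (mul_ne_zero hϖ.ne_zero hs0)
    obtain ⟨n, 𝔞, hle, hfin𝔞, K, f, hf1, hf2, hf3, hf4⟩ := exists_family (𝒪 := 𝒪) hp ψ ρ hρ hirr J
      hsmooth hfrob hfin hsupp (Ideal.span {ϖ * s})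
    have h𝔞0 : 𝔞 ≠ ⊥ := by
      rintro rfl
      have h1 : Finite 𝒪 := Finite.of_equiv _ (RingEquiv.quotientBot 𝒪).toEquiv
      have h2 := infinite_of_charZero 𝒪
      exact not_finite 𝒪
    obtain ⟨r, hr⟩ := IsDiscreteValuationRing.ideal_eq_span_pow_irreducible h𝔞0 hϖ
    have hdvd : ϖ * s ∣ ϖ ^ r := by
      rw [← Ideal.mem_span_singleton]
      apply hle
      rw [hr]
      exact Ideal.mem_span_singleton_self _
    obtain ⟨r', rfl⟩ : ∃ r', r = r' + 1 := by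
      cases r with
      | zero =>
        exfalso
        rw [pow_zero] at hdvd
        exact hϖ.not_isUnit (isUnit_of_dvd_one (dvd_of_mul_right_dvd hdvd))
      | succ r' => exact ⟨r', rfl⟩
    obtain ⟨d, hd⟩ : s ∣ ϖ ^ r' := by
      rw [pow_succ', mul_dvd_mul_iff_left hϖ.ne_zero] at hdvd
      exact hdvd
    obtain ⟨p', hp'⟩ : ϖ ∣ (p : 𝒪) := by
      rw [← Ideal.mem_span_singleton, ← hϖ.maximalIdeal_eq]
      exact hp𝒪
    -- the maps `f k (ψ t • ·)` send `W` to `Kr (n + 1)`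
    have hK0 : ∀ k (v : ρ.V), f k (ψ t • v) ∈ K0 := fun k v => by
      rw [hf3]
      exact hK0t n _ (hf1 k v)
    have hWK : ∀ k, ∀ w ∈ W, f k (ψ t • w) ∈ Kr (n + 1) := by
      intro k w hw
      have hgen : ∀ a : 𝒪, f k (ψ t • (a • w)) ∈ Kr (n + 1) := by
        induction hw using Submodule.span_induction with
        | mem w hw =>
          obtain ⟨g, hg, v, rfl⟩ := hw
          intro a
          have h1 : ψ t • (a • (ρ.ρ g v - eta A p (e : 𝒪) g • v)) =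
              ρ.ρ g (ψ t • (a • v)) - (eta A p e g : ℤ) • (ψ t • (a • v)) := by
            rw [map_smul, map_smul, ← Int.cast_smul_eq_zsmul 𝒪, hcast]
            simp only [smul_sub]
            rw [smul_comm a (eta A p (e : 𝒪) g) v, smul_comm (ψ t) (eta A p (e : 𝒪) g)]
          rw [h1, map_sub, hf2, map_zsmul]
          refine hD (n + 1) _ ?_ (hK0 k _) g hg
          rw [pow_succ', mul_smul, hf1, smul_zero]
        | zero => intro a; rw [smul_zero, smul_zero, map_zero]; exact zero_mem _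
        | add x y _ _ hx hy =>
          intro a; rw [smul_add, smul_add, map_add]; exact add_mem (hx a) (hy a)
        | smul b x _ hx => intro a; rw [smul_smul a b x]; exact hx _
      have := hgen 1
      rwa [one_smul] at this
    -- multiplicativity
    have hkey : ∀ τ ∈ A.inertiaSubgroupIn ℚ, ∀ a : ℕ,
        (∀ ζ : AlgebraicClosure ℚ, ζ ^ p = 1 → τ ζ = ζ ^ a) →
        ∀ u : ρ.V, ∃ w : ρ.V, ρ.ρ τ u - (a : 𝒪) • u = ϖ • w := by
      intro τ hτ a ha u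
      set v : ρ.V := ϖ ^ r' • u with hv
      have hv2 : v = ψ t • (c • (d • u)) := by
        rw [hv, hd, hs, mul_smul, mul_smul, smul_comm]
      have hmem : ρ.ρ τ v - (a : 𝒪) • v ∈ 𝔞 • (⊤ : Submodule 𝒪 ρ.V) := by
        rw [← hf4]
        intro k
        have h1 : f k v ∈ Kr (n + 1) := by
          rw [hv2]
          exact hWK k _ (hc _)
        have h2 : p • f k v = 0 := by
          rw [← map_nsmul]
          refine (hf4 _).mpr ?_ k
          rw [← Nat.cast_smul_eq_nsmul 𝒪, hv, smul_smul, hp', hr]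
          have : ϖ * p' * ϖ ^ r' = p' * ϖ ^ (r' + 1) := by ring
          rw [this, mul_smul, smul_comm]
          exact Submodule.smul_mem_smul (Ideal.mem_span_singleton_self _) Submodule.mem_top
        have h3 : f k v ∈ K0 := by
          rw [hv2]
          exact hK0 k _
        have h4 := hmult (n + 1) (Nat.le_add_left 1 n) _ h1 h2 h3 τ hτ a ha
        rw [map_sub, hf2, h4, Nat.cast_smul_eq_nsmul, map_nsmul, sub_self]
      rw [hr, Submodule.ideal_span_singleton_smul] at hmem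
      obtain ⟨w, -, hw⟩ := Submodule.mem_smul_pointwise_iff_exists _ _ _ |>.mp hmem
      refine ⟨w, ?_⟩
      have h5 : ϖ ^ r' • (ρ.ρ τ u - (a : 𝒪) • u) = ϖ ^ r' • (ϖ • w) := by
        rw [smul_smul, ← pow_succ, hw, hv, smul_sub, map_smul, smul_comm (a : 𝒪)]
      exact smul_right_injective ρ.V (pow_ne_zero r' hϖ.ne_zero) h5
    by_cases hp2 : p = 2
    · -- `p = 2`: the residual hypothesis
      have hns' : NonScalarInertia p A ρ := hns.resolve_left fun h => h hp2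
      obtain ⟨τ, hτ, a, ha, u, hu⟩ := hns'
      obtain ⟨w, hw⟩ := hkey τ hτ a ha u
      apply hu
      rw [hw, hϖ.maximalIdeal_eq]
      exact Submodule.smul_mem_smul (Ideal.mem_span_singleton_self _) Submodule.mem_top
    · obtain ⟨τ, hτ, a, ha, hadvd⟩ :=
        Fermat.Agent.FlatOrd.Cyc.exists_inertia_cyclotomic hp hp2 A hA
      have h1 := det_sub_sq_mem (stdBasis ρ) ϖ (a : 𝒪) (ρ.ρ τ) (hkey τ hτ a ha)
      rw [← hϖ.maximalIdeal_eq] at h1
      have h2 : LinearMap.det (ρ.ρ τ) - (a : 𝒪) ∈ maximalIdeal 𝒪 := by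
        have h3 := hdet.2 1 τ a (by rwa [pow_one])
        rw [pow_one] at h3
        exact (Ideal.span_singleton_le_iff_mem _).mpr hp𝒪 h3
      have hunit : LinearMap.det (ρ.ρ τ) ∉ maximalIdeal 𝒪 := by
        rw [IsLocalRing.mem_maximalIdeal, mem_nonunits_iff, not_not]
        refine IsUnit.of_mul_eq_one (LinearMap.det (ρ.ρ τ⁻¹)) ?_
        rw [← map_mul, ← map_mul, mul_inv_cancel, map_one, map_one]
      have ha' : (a : 𝒪) ∉ maximalIdeal 𝒪 := by
        intro h4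
        apply hunit
        have := Ideal.add_mem _ h2 h4
        rwa [sub_add_cancel] at this
      have h3 : (a : 𝒪) * ((a : 𝒪) - 1) ∈ maximalIdeal 𝒪 := by
        have := Ideal.sub_mem _ h2 h1
        have e : LinearMap.det (ρ.ρ τ) - (a : 𝒪) - (LinearMap.det (ρ.ρ τ) - (a : 𝒪) ^ 2) =
          (a : 𝒪) * ((a : 𝒪) - 1) := by ring
        rwa [e] at this
      have h4 : (a : 𝒪) - 1 ∈ maximalIdeal 𝒪 :=
        ((maximalIdeal.isMaximal 𝒪).isPrime.mem_or_mem h3).resolve_left ha'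
      have hcop : IsCoprime ((a : ℤ) - 1) (p : ℤ) := by
        rw [Int.isCoprime_iff_gcd_eq_one]
        rcases (Nat.dvd_prime hp).mp (Int.gcd_dvd_natAbs_right ((a : ℤ) - 1) (p : ℤ)) with h | h
        · exact h
        · exfalso
          apply hadvd
          have := Int.gcd_dvd_left ((a : ℤ) - 1) (p : ℤ)
          rwa [h] at this
      obtain ⟨x, y, hxy⟩ := hcop
      have hxyT : (x : 𝒪) * ((a : 𝒪) - 1) + y * p = 1 := by
        exact_mod_cast congrArg (Int.cast (R := 𝒪)) hxy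
      have h5 : (1 : 𝒪) ∈ maximalIdeal 𝒪 := by
        rw [← hxyT]
        exact Ideal.add_mem _ (Ideal.mul_mem_left _ _ h4) (Ideal.mul_mem_left _ _ hp𝒪)
      exact (Ideal.ne_top_iff_one _).mp (maximalIdeal.isMaximal 𝒪).ne_top h5

end Main

end Fermat.Agent.DR.OrdAll
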