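import Fermat.Agent.DR.Ord.NormEst

/-!
# The reduction of the norm along a degeneracy map

`N_φ(f)(q) = e₁(f)(q) ∏ e₂(f)(ζ^j q^{1/p})` reduces to `u₁ · Frob(u₂)`.
-/

set_option autoImplicit false
set_option linter.unusedSectionVars false

noncomputable section

open ModularCurve AlgebraicCurve Fermat.Agent.RR Fermat.Agent.S28 Fermat.Agent.JRED
  Fermat.Agent.JRED.ES Fermat.Agent.Jan.HeckeNorm Fermat.Agent.DR.Ord

namespace Fermat.Agent.DR.OrdAll

section U

variable {K k : Type*} [Field K] [Field k] {A : ValuationSubring K} {π : A →+* k} {p : ℕ}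
  [hpf : Fact p.Prime] [CharP k p] [ExpChar k p]

/-- The reduction of `𝒰 f`. -/
theorem gred_of_twistProd {ζ : Aˣ} (hζ : IsPrimitiveRoot ζ p) {f N' : LaurentSeries K}
    (hN : qExpand K p N' = twistProd p (Units.map A.subtype.toMonoidHom ζ) f)
    {u : LaurentSeries k} (hf : GRed π f u) : GRed π N' (coeffMap (frobenius k p) u) := by
  have hp := hpf.out
  obtain ⟨a, b, hb, hab, hu⟩ := hf
  obtain ⟨nb, hnb⟩ := exists_qExpand_eq_twistProd p hζ b
  obtain ⟨na, hna⟩ := exists_qExpand_eq_twistProd p hζ a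
  have e1 : qExpand k p (coeffMap π nb) = coeffMap π b ^ p := by
    rw [← coeffMap_qExpand, hnb, coeffMap_twistProd p hp π hζ.pow_eq_one]
  have e2 : qExpand k p (coeffMap π na) = coeffMap π a ^ p := by
    rw [← coeffMap_qExpand, hna, coeffMap_twistProd p hp π hζ.pow_eq_one]
  refine ⟨na, nb, ?_, ?_, ?_⟩
  · intro h0
    rw [h0, map_zero] at e1
    exact hb ((pow_eq_zero_iff hp.ne_zero).mp e1.symm)
  · apply qExpand_injective p
    rw [map_mul, hN, ← coeffMap_qExpand, ← coeffMap_qExpand, hnb, hna, coeffMap_twistProd',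
      coeffMap_twistProd', ← twistProd_mul, hab]
  · apply qExpand_injective p
    rw [map_mul, e1, e2, ← laurent_pow_char, ← mul_pow, hu]

end U

section Norm

variable {K E F k F₁ F₂ : Type*} [Field K] [CharZero K] [Field E] [Field F] [Algebra K E]
  [Algebra K F] [Field k] [Field F₁] [Field F₂] [Algebra k F₁] [Algebra k F₂]
  {A : ValuationSubring K} {π : A →+* k} {p : ℕ} [hpf : Fact p.Prime] [CharP k p] [ExpChar k p]
  {φ : E →ₐ[K] F} {inE : E →+* LaurentSeries K} {e₁ e₂ : F →+* LaurentSeries K}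
  {R₁ : RedDatum K F k F₁ A π} {R₂ : RedDatum K F k F₂ A π}

/-- **The reduction of the norm along a degeneracy map.** -/
theorem gred_norm (D : DegenData p φ inE e₁ e₂ R₁ R₂) {f : F} {u₁ u₂ : LaurentSeries k}
    (h₁ : GRed π (e₁ f) u₁) (h₂ : GRed π (e₂ f) u₂) :
    GRed π (inE (normAlong φ f)) (u₁ * coeffMap (frobenius k p) u₂) := by
  obtain ⟨ζ, hζ⟩ := D.root
  have hζ' : IsPrimitiveRoot (Units.map A.subtype.toMonoidHom ζ) p := by
    refine hζ.map_of_injective (f := Units.map A.subtype.toMonoidHom) ?_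
    exact Units.map_injective Subtype.val_injective
  obtain ⟨y, hy⟩ := D.gen
  have hrel := qExpand_norm φ D.fin D.deg inE e₁ e₂ D.comp₁ (D.comp₂ _) hζ' hy f
  obtain ⟨N', hN'⟩ := exists_qExpand_eq_twistProd p hζ' (e₂ f)
  have h3 := gred_of_twistProd hζ hN' h₂
  have h4 : inE (normAlong φ f) = e₁ f * N' := by
    apply qExpand_injective p
    rw [hrel, map_mul, hN']
  rw [h4]
  exact h₁.mul h3

end Norm

end Fermat.Agent.DR.OrdAll
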